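import Mathlib

set_option autoImplicit false
set_option linter.style.haveILetI false

/-!
# Faithfulness modulo powers of `p`
-/

namespace Fermat.Agent.GalRep

/-- In a noetherian `ℤ`-module the `p`-power torsion is killed by a fixed power of `p`. -/
theorem exists_pow_torsion_bound {Q : Type*} [AddCommGroup Q] [Module.Finite ℤ Q] (p : ℕ) :
    ∃ c : ℕ, ∀ (k : ℕ) (q : Q), p ^ k • q = 0 → p ^ c • q = 0 := by
  haveI : IsNoetherian ℤ Q := isNoetherian_of_isNoetherianRing_of_finite ℤ Q
  let f : ℕ →o Submodule ℤ Q :=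
    { toFun := fun k => LinearMap.ker ((p ^ k : ℤ) • (LinearMap.id : Q →ₗ[ℤ] Q))
      monotone' := by
        intro i j hij q hq
        rw [LinearMap.mem_ker, LinearMap.smul_apply, LinearMap.id_apply] at hq ⊢
        obtain ⟨d, rfl⟩ := Nat.exists_eq_add_of_le hij
        rw [pow_add, mul_comm, mul_smul, hq, smul_zero] }
  obtain ⟨c, hc⟩ := monotone_stabilizes_iff_noetherian.mpr (inferInstance : IsNoetherian ℤ Q) f
  have hmem : ∀ (k : ℕ) (q : Q), q ∈ f k ↔ p ^ k • q = 0 := by
    intro k q
    change q ∈ LinearMap.ker ((p ^ k : ℤ) • (LinearMap.id : Q →ₗ[ℤ] Q)) ↔ _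
    rw [LinearMap.mem_ker, LinearMap.smul_apply, LinearMap.id_apply]
    rw [← Nat.cast_pow, natCast_zsmul]
  refine ⟨c, fun k q hq => ?_⟩
  rw [← hmem] at hq ⊢
  obtain h | h := le_total k c
  · exact f.monotone h hq
  · rw [hc k h]; exact hq

/-- Let the commutative ring `T` act faithfully on a finitely generated free abelian group `L`.
Then elements of `T` which are divisible by a large power of `p` on `L` are divisible by
a large power of `p` in `T`. -/
theorem exists_faithful_bound {T L : Type*} [CommRing T] [AddCommGroup L] [Module T L]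
    [Module.Finite ℤ L] [Module.Free ℤ L] (hf : ∀ a : T, (∀ x : L, a • x = 0) → a = 0) (p : ℕ)
    (hp : p ≠ 0) :
    ∃ c : ℕ, ∀ (M : ℕ) (a : T), (∀ x : L, ∃ y : L, a • x = p ^ (M + c) • y) →
      ∃ b : T, a = p ^ M • b := by
  let φ : T →ₗ[ℤ] (L →ₗ[ℤ] L) :=
    { toFun := fun a =>
        { toFun := fun x => a • x
          map_add' := fun x y => smul_add a x y
          map_smul' := fun n x => by
            simp only [RingHom.id_apply]
            rw [smul_comm] }
      map_add' := fun a b => by ext x; exact add_smul a b x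
      map_smul' := fun n a => by ext x; exact smul_assoc n a x }
  have hφ : ∀ (a : T) (x : L), φ a x = a • x := fun _ _ => rfl
  obtain ⟨c, hc⟩ := exists_pow_torsion_bound (Q := (L →ₗ[ℤ] L) ⧸ LinearMap.range φ) p
  refine ⟨c, fun M a ha => ?_⟩
  haveI : IsAddTorsionFree L := by
    exact (Module.isTorsionFree_int_iff_isAddTorsionFree).mp inferInstance
  have hpM : p ^ (M + c) ≠ 0 := pow_ne_zero _ hp
  choose e he using ha
  have hinj : ∀ x y : L, p ^ (M + c) • x = p ^ (M + c) • y → x = y := fun x y h =>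
    nsmul_right_injective hpM h
  let E : L →ₗ[ℤ] L :=
    { toFun := e
      map_add' := fun x y => hinj _ _ (by rw [← he, smul_add, he, he, ← smul_add])
      map_smul' := fun n x => hinj _ _ (by
        rw [← he, RingHom.id_apply, smul_comm a n x, he, smul_comm n]) }
  have h1 : p ^ (M + c) • E = φ a := by
    ext x
    rw [LinearMap.smul_apply, hφ, he]
    rfl
  have h2 : p ^ (M + c) • (Submodule.Quotient.mk E : (L →ₗ[ℤ] L) ⧸ LinearMap.range φ) = 0 := by
    rw [← Submodule.Quotient.mk_smul, Submodule.Quotient.mk_eq_zero, h1]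
    exact ⟨a, rfl⟩
  have h3 := hc _ _ h2
  rw [← Submodule.Quotient.mk_smul, Submodule.Quotient.mk_eq_zero] at h3
  obtain ⟨b, hb⟩ := h3
  refine ⟨b, ?_⟩
  rw [← sub_eq_zero]
  apply hf
  intro x
  rw [sub_smul, ← hφ, ← h1, pow_add, LinearMap.smul_apply, mul_smul, ← LinearMap.smul_apply (p ^ c),
    ← hb, smul_assoc, hφ, sub_self]

end Fermat.Agent.GalRep
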