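import Fermat.Prelude.Def_CuspForm_HeckeAlgebra
import Fermat.Prelude.Def_GaloisRep_Residual

set_option autoImplicit false

/-!
# The interface between geometry and Galois representations

`HasBGM N p` ("big Galois modules") is the only input from geometry which is needed to attach
Galois representations to weight two Hecke eigenforms on `Γ₀(N)`.
-/

namespace Fermat.Agent.GalRep

/-- the Galois group of `ℚ̄ / ℚ`, with the algebra structure used in the frozen statements -/
abbrev GQ : Type := AlgebraicClosure ℚ ≃ₐ[ℚ] AlgebraicClosure ℚ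

/-- the divisors of `N p`; a prime is not in this set iff it does not divide `N p` -/
def badSet (N p : ℕ) : Set ℕ := {q | q ∣ N * p}

/-- the Hecke algebra generated over `ℤ` by all `T_ℓ`, `ℓ ∤ N p`. -/
abbrev T₀ (N p : ℕ) [NeZero N] : Type := CuspForm.heckeAlgebra N 2 (badSet N p)

theorem not_dvd_of_notMem_badSet {N p ℓ : ℕ} (h : ℓ ∉ badSet N p) : ¬ ℓ ∣ N :=
  fun h' => h (dvd_mul_of_dvd_left h' p)

/-- the Hecke operator `T_ℓ`, `ℓ ∤ N p` -/
noncomputable abbrev Tℓ {N p : ℕ} [NeZero N] {ℓ : ℕ} (hℓ : ℓ.Prime) (h : ℓ ∉ badSet N p) : T₀ N p :=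
  CuspForm.heckeAlgebra.T hℓ (not_dvd_of_notMem_badSet h) h

/-- `X` is a Hecke module with Galois action, with the Eichler-Shimura relation, which is
faithful modulo `p ^ n`. -/
structure IsBGM (N p : ℕ) [NeZero N] (n : ℕ) (X : Type) [AddCommGroup X] [Module (T₀ N p) X]
    (ρ : GQ →* Module.End (T₀ N p) X) : Prop where
  /-- `X` is killed by a power of `p` -/
  torsion : ∃ m : ℕ, ∀ x : X, p ^ m • x = 0
  /-- the Galois action factors through a finite level -/
  level : ∃ L : IntermediateField ℚ (AlgebraicClosure ℚ), FiniteDimensional ℚ L ∧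
    ∀ σ : GQ, (∀ x ∈ L, σ x = x) → ρ σ = 1
  /-- the Galois action is unramified outside `N p` -/
  unramified : ∀ q : ℕ, q.Prime → q ∉ badSet N p → ∀ A : ValuationSubring (AlgebraicClosure ℚ),
    A.LiesOverPrime q → ∀ σ ∈ A.inertiaSubgroupIn ℚ, ρ σ = 1
  /-- the Eichler-Shimura relation `σ² - T_ℓ σ + ℓ = 0` -/
  frobenius : ∀ (ℓ : ℕ) (hℓ : ℓ.Prime) (h : ℓ ∉ badSet N p),
    ∀ A : ValuationSubring (AlgebraicClosure ℚ), A.LiesOverPrime ℓ →
      ∀ σ : GQ, A.IsFrobeniusAt σ ℓ → ∀ x : X,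
        ρ σ (ρ σ x) - (Tℓ hℓ h : T₀ N p) • ρ σ x + ℓ • x = 0
  /-- faithfulness modulo `p ^ n` -/
  faithful : ∀ a : T₀ N p, (∀ x : X, a • x = 0) → ∃ b : T₀ N p, a = (p ^ n) • b

/-- For every `n` there is a Hecke module with Galois action satisfying the Eichler-Shimura
relation which is faithful modulo `p ^ n`. -/
def HasBGM (N p : ℕ) [NeZero N] : Prop :=
  ∀ n : ℕ, ∃ (X : Type) (_ : AddCommGroup X) (_ : Module (T₀ N p) X)
    (ρ : GQ →* Module.End (T₀ N p) X), IsBGM N p n X ρ

end Fermat.Agent.GalRep
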