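import Fermat.Agent.GalRep.LocalCond
import Fermat.Prelude.Def_CuspForm_Newforms

set_option autoImplicit false
set_option linter.style.haveILetI false
set_option linter.unusedSectionVars false
set_option linter.unusedVariables false

/-!
# Local information at bad primes: S35 from the action of Frobenius on Hecke modules
-/

namespace Fermat.Agent.GalRep

open IsLocalRing Matrix Polynomial
open Fermat.Agent.DefRing (toMatRep toMatRep_apply toMatRep_cont MatCont)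

variable {p : ℕ} {N : ℕ} [NeZero N]

/-- The payload: `(Φ² - 1)(Φ² - q²) = 0` on `C a X`. -/
def FrobAt (C q : ℕ) {R X : Type} [CommRing R] [AddCommGroup X] [Module R X] (a : R)
    (ρ : GQ →* Module.End R X) : Prop :=
  ∀ A : ValuationSubring (AlgebraicClosure ℚ), A.LiesOverPrime q →
    ∀ Φ : GQ, A.IsFrobeniusAt Φ q → ∀ x : X,
      C • a • (ρ Φ (ρ Φ (ρ Φ (ρ Φ x))) - (q ^ 2 + 1) • ρ Φ (ρ Φ x) + q ^ 2 • x) = 0

theorem frob_trace [hp : Fact p.Prime] {B : Type*} [CommRing B] {I : Ideal B} [IsAdicComplete I B]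
    {R : Type} [CommRing R] {a : ℕ → R} {S : Set ℕ} (hpI : (p : B) ∈ I) (χ : R →+* B)
    (htf : ∀ (n : ℕ) (x : B), n ≠ 0 → (n : B) * x = 0 → x = 0)
    {C q : ℕ} (hC : 0 < C) (hq : q.Prime) (hqp : q ≠ p) {t : GQ → B} {a₀ : R}
    (ht : ∀ n g, ∃ (X : Type) (i₁ : AddCommGroup X) (i₂ : Module R X)
        (ρ : GQ →* Module.End R X), IsHG a S p n ρ ∧ FrobAt C q a₀ ρ ∧ ∃ (m : ℕ) (r : R),
          (∀ x : X, p ^ m • x = 0) ∧
          Ideal.Quotient.mk (I ^ n) (t g) = Ideal.Quotient.mk (I ^ n) (χ r) ∧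
          ∀ x : X, ρ g x + (cyc (p ^ m) g).val • ρ g⁻¹ x = r • x)
    {A : ValuationSubring (AlgebraicClosure ℚ)} (hA : A.LiesOverPrime q) {σ : GQ}
    (hσ : A.IsFrobeniusAt σ q) : χ a₀ * (t σ ^ 2 - ((q : B) + 1) ^ 2) = 0 := by
  have h0 : (C : B) * (χ a₀ * (t σ ^ 2 - ((q : B) + 1) ^ 2)) = 0 := by
    refine eq_of_forall_mk_eq I fun n => ?_
    obtain ⟨X, i₁, i₂, ρ, hρ, hU, m, r, hm, htr, hr⟩ := ht n σ
    have hcop : Nat.Coprime q (p ^ m) :=
      Nat.Coprime.pow_right _ ((Nat.coprime_primes hq hp.out).mpr hqp)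
    have hone : ∀ x : X, (cyc (p ^ m) σ).val • x = q • x := by
      intro x
      have h4 : ((cyc (p ^ m) σ).val : ZMod (p ^ m)) = (q : ZMod (p ^ m)) := by
        rw [ZMod.natCast_zmod_val, cyc_frobenius hcop hA hσ]
      rw [ZMod.natCast_eq_natCast_iff] at h4
      obtain h5 | h5 := le_total (cyc (p ^ m) σ).val q
      · obtain ⟨c, hc⟩ := (Nat.modEq_iff_dvd' h5).mp h4
        have h6 : q = (cyc (p ^ m) σ).val + c * p ^ m := by
          rw [mul_comm]; omega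
        conv_rhs => rw [h6]
        rw [add_smul, mul_smul, hm, smul_zero, add_zero]
      · obtain ⟨c, hc⟩ := (Nat.modEq_iff_dvd' h5).mp h4.symm
        have h6 : (cyc (p ^ m) σ).val = q + c * p ^ m := by
          rw [mul_comm]; omega
        rw [h6, add_smul, mul_smul, hm, smul_zero, add_zero]
    have hinv : ∀ x : X, ρ σ (ρ σ⁻¹ x) = x := fun x => by
      rw [← Module.End.mul_apply, ← map_mul, mul_inv_cancel, map_one, Module.End.one_apply]
    have hinv' : ∀ x : X, ρ σ⁻¹ (ρ σ x) = x := fun x => by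
      rw [← Module.End.mul_apply, ← map_mul, inv_mul_cancel, map_one, Module.End.one_apply]
    -- `F² = r F - q`
    have hCH : ∀ x : X, ρ σ (ρ σ x) = r • ρ σ x - (q : R) • x := by
      intro x
      rw [← hr (ρ σ x), hone, hinv', Nat.cast_smul_eq_nsmul]
      abel
    have h1 : ∀ x : X, ((C : R) * (a₀ * (r ^ 2 - ((q : R) + 1) ^ 2))) • x = 0 := by
      intro x
      have e0 : ρ σ (ρ σ (ρ σ⁻¹ (ρ σ⁻¹ x))) = x := by rw [hinv, hinv]
      have e1 := hU A hA σ hσ (ρ σ⁻¹ (ρ σ⁻¹ x))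
      set y := ρ σ⁻¹ (ρ σ⁻¹ x) with hy
      have e2 : ρ σ (ρ σ (ρ σ (ρ σ y))) - (q ^ 2 + 1) • ρ σ (ρ σ y) + q ^ 2 • y =
          (r ^ 2 - ((q : R) + 1) ^ 2) • ρ σ (ρ σ y) := by
        have e3 : ρ σ (ρ σ (ρ σ (ρ σ y))) = r • (r • ρ σ (ρ σ y) - (q : R) • ρ σ y) -
            (q : R) • ρ σ (ρ σ y) := by
          rw [hCH (ρ σ (ρ σ y)), hCH (ρ σ y)]
        rw [e3]
        have e4 : r • ρ σ y = ρ σ (ρ σ y) + (q : R) • y := by rw [hCH y]; abel
        rw [← Nat.cast_smul_eq_nsmul R, ← Nat.cast_smul_eq_nsmul R, smul_sub,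
          smul_comm r (q : R) (ρ σ y), e4]
        push_cast
        module
      rw [e2, e0] at e1
      rw [mul_smul, mul_smul, Nat.cast_smul_eq_nsmul]
      exact e1
    obtain ⟨b, hb⟩ := hρ.faithful _ h1
    have h2 : (C : B) * (χ a₀ * (χ r ^ 2 - ((q : B) + 1) ^ 2)) = (p : B) ^ n * χ b := by
      have := congrArg χ hb
      simp only [map_mul, map_sub, map_pow, map_add, map_natCast, map_one] at this
      exact this
    have h3 : Ideal.Quotient.mk (I ^ n) ((C : B) * (χ a₀ * (χ r ^ 2 - ((q : B) + 1) ^ 2))) = 0 := by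
      rw [h2, Ideal.Quotient.eq_zero_iff_mem]
      exact Ideal.mul_mem_right _ _ (Ideal.pow_mem_pow hpI n)
    rw [map_zero, ← h3]
    simp only [map_mul, map_sub, map_pow, map_add, map_natCast, map_one, htr]
  exact htf C _ hC.ne' h0

/-- Hecke modules on which Frobenius at `q` satisfies the relation, for the part `a`. -/
def HasFrob (N p q : ℕ) [NeZero N] {S : Set ℕ} (a : T₀ N p) : Prop :=
  ∃ C : ℕ, 0 < C ∧ ∀ n : ℕ, ∃ (X : Type) (_ : AddCommGroup X) (_ : Module (T₀ N p) X)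
    (ρ : GQ →* Module.End (T₀ N p) X), IsBGM N p n X ρ ∧ FrobAt C q a ρ

theorem IsGoodPseudoRep.t_unique [Fact p.Prime] {B : Type*} [CommRing B] {I : Ideal B}
    [IsAdicComplete I B] {b : ℕ → B} {S : Set ℕ} (hS : S.Finite) {K K' : Set GQ}
    {t D t' D' : GQ → B}
    (h : IsGoodPseudoRep I b S p K t D) (h' : IsGoodPseudoRep I b S p K' t' D') : t = t' := by
  funext g
  refine eq_of_forall_mk_eq I fun n => ?_
  have h1 := h.isPseudoRep.comp (Ideal.Quotient.mk (I ^ n))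
  have h2 := h'.isPseudoRep.comp (Ideal.Quotient.mk (I ^ n))
  refine congrFun (IsPseudoRep.t_eq_of_frobenius h1 h2 (h.cont n) (h'.cont n) hS ?_) g
  intro ℓ hℓ hℓS P hP τ hτ
  obtain ⟨h3, h4⟩ := h.frobenius ℓ hℓ hℓS P hP τ hτ
  obtain ⟨h5, h6⟩ := h'.frobenius ℓ hℓ hℓS P hP τ hτ
  rw [h3, h4, h5, h6]
  exact ⟨rfl, rfl⟩

theorem injective_of_range {S : Set ℕ} (χ : CuspForm.heckeAlgebra N 2 S →+* ℂ)
    {O' : Type} [CommRing O'] [IsDomain O'] [CharZero O'] (iota : χ.range →+* O') :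
    Function.Injective iota := by
  rw [RingHom.injective_iff_ker_eq_bot]
  by_contra hne
  obtain ⟨x, hx, hx0⟩ := Submodule.exists_mem_ne_zero_of_ne_bot hne
  -- `x` is integral over `ℤ`
  haveI : Module.Finite ℤ (CuspForm.heckeAlgebra N 2 S) := Fermat.Agent.S22.result N 2 S
  haveI : Module.Finite ℤ χ.range :=
    Module.Finite.of_surjective χ.rangeRestrict.toAddMonoidHom.toIntLinearMap
      χ.rangeRestrict_surjective
  have hint : IsIntegral ℤ x := IsIntegral.of_finite ℤ x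
  have hker : (RingHom.ker iota).comap (algebraMap ℤ χ.range) ≠ ⊥ :=
    Ideal.comap_ne_bot_of_integral_mem hx0 hx hint
  apply hker
  rw [eq_bot_iff]
  intro n hn
  rw [Ideal.mem_comap, RingHom.mem_ker, eq_intCast, map_intCast] at hn
  rw [Ideal.mem_bot]
  exact_mod_cast hn

theorem s35_of_frob (hB : ∀ (N p : ℕ) [NeZero N] [Fact p.Prime], HasBGM N p)
    {M : ℕ} [NeZero M] {g : CuspForm (CongruenceSubgroup.Gamma0 M) 2} (hg : g.IsNewform)
    (lam : ℕ) [Fact lam.Prime]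
    (S : Finset ℕ)
    (hlamS : lam ∈ S) (hMS : ∀ q : ℕ, q.Prime → q ∣ M → q ∈ S)
    (O' : Type) [CommRing O'] [IsDomain O'] [IsDiscreteValuationRing O']
    [IsAdicComplete (IsLocalRing.maximalIdeal O') O'] [Finite (IsLocalRing.ResidueField O')]
    [CharZero O'] (hlamO' : (lam : O') ∈ IsLocalRing.maximalIdeal O')
    (chig : CuspForm.heckeAlgebra M 2 (↑S : Set ℕ) →+* ℂ)
    (hchig : ∀ (ℓ : ℕ) (hℓ : ℓ.Prime) (hℓM : ¬ ℓ ∣ M) (hℓS : ℓ ∉ (↑S : Set ℕ)),
      chig (CuspForm.heckeAlgebra.T hℓ hℓM hℓS) = ModularFormClass.qCoeff g ℓ)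
    (iota : chig.range →+* O')
    (hF : ∀ q : ℕ, q.Prime → q ≠ lam → q ∣ M → ¬ q ^ 2 ∣ M →
      ∃ a : CuspForm.heckeAlgebra M 2 (↑S : Set ℕ), chig a ≠ 0 ∧
        HasFrob M lam q (S := (↑S : Set ℕ)) (incl (p := lam) (N := M) hlamS hMS a)) :
    ∃ (O'' : Type) (_ : CommRing O'') (_ : IsDomain O'') (_ : IsDiscreteValuationRing O'')
      (_ : IsAdicComplete (IsLocalRing.maximalIdeal O'') O'') (_ : Finite (IsLocalRing.ResidueField O''))
      (_ : CharZero O'') (_ : Algebra O' O'') (_ : Module.Finite O' O'') (_ : IsLocalHom (algebraMap O' O'')),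
      Function.Injective (algebraMap O' O'') ∧
      ∃ ρ : GaloisRepAdic O'',
        (∀ (ℓ : ℕ) (hℓ : ℓ.Prime) (hℓM : ¬ ℓ ∣ M) (hℓS : ℓ ∉ (↑S : Set ℕ)),
          ∀ A : ValuationSubring (AlgebraicClosure ℚ), A.LiesOverPrime ℓ →
            ∀ σ : AlgebraicClosure ℚ ≃ₐ[ℚ] AlgebraicClosure ℚ, A.IsFrobeniusAt σ ℓ →
              LinearMap.charpoly (ρ.ρ σ) =
                X ^ 2 - C (algebraMap O' O'' ((iota.comp chig.rangeRestrict) (CuspForm.heckeAlgebra.T hℓ hℓM hℓS))) * X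
                  + C ((ℓ : O''))) ∧
        (∀ q : ℕ, q.Prime → q ≠ lam → q ∣ M → ¬ q ^ 2 ∣ M →
          ∀ A : ValuationSubring (AlgebraicClosure ℚ), A.LiesOverPrime q →
            ∀ σ : AlgebraicClosure ℚ ≃ₐ[ℚ] AlgebraicClosure ℚ, A.IsFrobeniusAt σ q →
              LinearMap.charpoly (ρ.ρ σ) = X ^ 2 - C ((q : O'') + 1) * X + C ((q : O'')) ∨
              LinearMap.charpoly (ρ.ρ σ) = X ^ 2 + C ((q : O'') + 1) * X + C ((q : O''))) := by
  have hMS' : ∀ q : ℕ, q.Prime → q ∣ M → q ∈ (↑S : Set ℕ) := hMS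
  set χ : CuspForm.heckeAlgebra M 2 (↑S : Set ℕ) →+* O' := iota.comp chig.rangeRestrict with hχ
  obtain ⟨t, D, h⟩ := exists_goodPseudoRep_hecke (hB M lam) S.finite_toSet hlamS hMS' hlamO' χ
  obtain ⟨ρ, h1, h2⟩ := h.exists_galoisRepAdic two_ne_zero
  refine ⟨O', inferInstance, inferInstance, inferInstance, inferInstance, inferInstance,
    inferInstance, Algebra.id O', inferInstance, ⟨fun a ha => ha⟩, fun _ _ h => h, ρ, ?_, ?_⟩
  · intro ℓ hℓ hℓN hℓS A hA σ hσ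
    obtain ⟨h3, h4⟩ := h.frobenius ℓ hℓ hℓS A hA σ hσ
    rw [h1, h3, h4, heckeFun_eq hℓ hℓN hℓS]
    rfl
  · intro q hq hqlam hqM hqM2 A hA σ hσ
    obtain ⟨a, ha, C₀, hC₀, hX⟩ := hF q hq hqlam hqM hqM2
    obtain ⟨t', D', h', hloc⟩ := exists_goodPseudoRep' (a := heckeFun M (↑S : Set ℕ)) hlamO' χ
      S.finite_toSet hlamS (inertiaSet M lam)
      (fun _ hσ k => cyc_eq_one_of_mem_inertiaSet hσ k)
      (fun X i₁ i₂ ρ => FrobAt C₀ q a ρ)
      (exists_isHG' hlamS hMS' (fun X i₁ i₂ ρ => FrobAt C₀ q (incl (p := lam) hlamS hMS' a) ρ) _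
        (fun X i₁ i₂ ρ h => h) hX)
    have htt : t = t' := h.t_unique S.finite_toSet h'
    have h3 : D σ = q := by
      refine eq_of_forall_mk_eq (maximalIdeal O') fun n => ?_
      have hcop : Nat.Coprime q (lam ^ n) :=
        Nat.Coprime.pow_right _ ((Nat.coprime_primes hq Fact.out).mpr hqlam)
      rw [h.D_eq, map_natCast]
      refine natCast_eq_of_modEq (natCast_val_eq_zero_of_dvd hlamO') ?_
      rw [← ZMod.natCast_eq_natCast_iff, ZMod.natCast_zmod_val, cyc_frobenius hcop hA hσ]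
    have h4 := frob_trace hlamO' χ (fun n x hn hx =>
      (mul_eq_zero.1 hx).resolve_left (Nat.cast_ne_zero.2 hn)) hC₀ hq hqlam hloc hA hσ
    rw [← htt] at h4
    have h5 : χ a ≠ 0 := by
      intro h0
      rw [hχ, RingHom.comp_apply] at h0
      have h6 := (injective_of_range chig iota) (h0.trans (map_zero iota).symm)
      exact ha (congrArg Subtype.val h6)
    have h6 := (mul_eq_zero.1 h4).resolve_left h5
    have h7 : (t σ - (q + 1)) * (t σ + (q + 1)) = 0 := by linear_combination h6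
    rcases mul_eq_zero.1 h7 with h8 | h8
    · left
      rw [h1, h3, sub_eq_zero.1 h8]
    · right
      have h9 : t σ = -(q + 1) := eq_neg_of_add_eq_zero_left h8
      rw [h1, h3, h9, C_neg]
      ring

end Fermat.Agent.GalRep
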