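import Fermat.Agent.GalRep.BGM
import Fermat.Agent.Cheb.Places
import Fermat.Prelude.Def_GaloisRep_ComplexConjugation

set_option autoImplicit false
set_option linter.style.haveILetI false

/-!
# The cyclotomic character modulo `n` on `Gal(ℚ̄/ℚ)`
-/

namespace Fermat.Agent.GalRep

open Fermat.Agent.Places Fermat.Agent.Cheb

section general

variable {L : Type*} [Field L]

/-- Roots of unity of order prime to `ℓ` which are congruent at a place over `ℓ` are equal. -/
theorem eq_of_sub_mem_nonunits {A : ValuationSubring L} {ℓ n : ℕ} (hA : A.LiesOverPrime ℓ)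
    (hℓn : Nat.Coprime ℓ n) {x y : L} (hx : x ^ n = 1) (hy : y ^ n = 1) (hn : n ≠ 0)
    (hxy : x - y ∈ A.nonunits) : x = y := by
  have hmem : ∀ {z : L}, z ^ n = 1 → z ∈ A := by
    intro z hz
    rw [← A.valuation_le_one_iff]
    have h1 : A.valuation z ^ n = 1 := by rw [← map_pow, hz, map_one]
    by_contra h
    push Not at h
    exact absurd h1 (ne_of_gt (one_lt_pow₀ h hn))
  have hy0 : y ≠ 0 := by
    rintro rfl
    rw [zero_pow hn] at hy
    exact zero_ne_one hy
  set z := x * y⁻¹ with hz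
  have hyi : (y⁻¹) ^ n = 1 := by rw [inv_pow, hy, inv_one]
  have hzn : z ^ n = 1 := by rw [hz, mul_pow, hx, hyi, one_mul]
  have hz1 : z - 1 ∈ A.nonunits := by
    have : z - 1 = (x - y) * y⁻¹ := by rw [sub_mul, mul_inv_cancel₀ hy0]
    rw [this]
    exact mul_mem_nonunits A hxy (hmem hyi)
  by_contra hne
  have hz1' : z - 1 ≠ 0 := by
    rw [sub_ne_zero]
    intro h
    apply hne
    rw [hz] at h
    field_simp at h
    exact h
  have hsum : ∑ i ∈ Finset.range n, z ^ i = 0 := by
    have := geom_sum_mul z n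
    rw [hzn, sub_self] at this
    exact (mul_eq_zero.mp this).resolve_right hz1'
  have hpow : ∀ i : ℕ, z ^ i - 1 ∈ A.nonunits := by
    intro i
    rw [← geom_sum_mul, mul_comm]
    exact mul_mem_nonunits A hz1 (sum_mem fun j _ => pow_mem (hmem hzn) j)
  have hn' : (n : L) ∈ A.nonunits := by
    have h1 : (n : L) = -∑ i ∈ Finset.range n, (z ^ i - 1) := by
      rw [Finset.sum_sub_distrib, hsum]
      simp
    rw [h1]
    refine neg_mem_nonunits A ?_
    refine Finset.sum_induction _ (· ∈ A.nonunits) (fun a b ha hb => add_mem_nonunits A ha hb)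
      (zero_mem_nonunits A) fun i _ => hpow i
  have hbez := Nat.gcd_eq_gcd_ab ℓ n
  rw [hℓn.gcd_eq_one] at hbez
  have h1 : (1 : L) = ℓ * (Nat.gcdA ℓ n : L) + n * (Nat.gcdB ℓ n : L) := by
    exact_mod_cast congrArg (Int.cast : ℤ → L) hbez
  refine one_notMem_nonunits A ?_
  rw [h1]
  exact add_mem_nonunits A (mul_mem_nonunits A hA (intCast_mem A _))
    (mul_mem_nonunits A hn' (intCast_mem A _))

theorem sub_mem_nonunits_of_mem_inertia {K : Type*} [Field K] [Algebra K L]
    {A : ValuationSubring L} {σ : L ≃ₐ[K] L} (h : σ ∈ A.inertiaSubgroupIn K) {x : L}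
    (hx : x ∈ A) : σ x - x ∈ A.nonunits := by
  obtain ⟨τ, hτ, rfl⟩ := h
  have h1 : τ • IsLocalRing.residue A ⟨x, hx⟩ = IsLocalRing.residue A ⟨x, hx⟩ := by
    have h2 : MulSemiringAction.toRingAut (A.decompositionSubgroup K)
      (IsLocalRing.ResidueField A) τ = 1 := hτ
    exact congrArg (fun f : RingAut (IsLocalRing.ResidueField A) =>
      f (IsLocalRing.residue A ⟨x, hx⟩)) h2
  rw [← IsLocalRing.ResidueField.residue_smul, ← sub_eq_zero, ← map_sub,
    IsLocalRing.residue_eq_zero_iff] at h1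
  have h2 : (τ : L ≃ₐ[K] L) x - x ∈ (A.nonunits : Set L) := by
    rw [← ValuationSubring.image_maximalIdeal]
    exact ⟨_, h1, rfl⟩
  exact h2

end general

/-- a primitive `n`-th root of unity in `ℚ̄` -/
theorem exists_zeta (n : ℕ) [NeZero n] :
    ∃ ζ : AlgebraicClosure ℚ, IsPrimitiveRoot ζ n :=
  HasEnoughRootsOfUnity.exists_primitiveRoot (AlgebraicClosure ℚ) n

/-- the cyclotomic character modulo `n` -/
noncomputable def cyc (n : ℕ) [NeZero n] : GQ →* ZMod n :=
  (Units.coeHom (ZMod n)).comp ((exists_zeta n).choose_spec.autToPow ℚ)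

theorem apply_eq_pow_cyc (n : ℕ) [NeZero n] (σ : GQ) {x : AlgebraicClosure ℚ} (hx : x ^ n = 1) :
    σ x = x ^ (cyc n σ).val := by
  obtain ⟨i, -, rfl⟩ := (exists_zeta n).choose_spec.eq_pow_of_pow_eq_one hx
  rw [map_pow, ← pow_mul, mul_comm, pow_mul, ← (exists_zeta n).choose_spec.autToPow_spec ℚ σ]
  rfl

theorem cyc_eq_of_forall (n : ℕ) [NeZero n] (σ : GQ) (j : ℕ)
    (h : ∀ x : AlgebraicClosure ℚ, x ^ n = 1 → σ x = x ^ j) : cyc n σ = j := by
  have h1 := h _ (exists_zeta n).choose_spec.pow_eq_one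
  rw [apply_eq_pow_cyc n σ (exists_zeta n).choose_spec.pow_eq_one] at h1
  have h2 := ((exists_zeta n).choose_spec.isOfFinOrder (NeZero.ne n)).pow_eq_pow_iff_modEq.mp h1
  rw [← (exists_zeta n).choose_spec.eq_orderOf, ← ZMod.natCast_eq_natCast_iff,
    ZMod.natCast_zmod_val] at h2
  exact h2

theorem cyc_frobenius {n : ℕ} [NeZero n] {ℓ : ℕ} (hℓn : Nat.Coprime ℓ n)
    {A : ValuationSubring (AlgebraicClosure ℚ)} (hA : A.LiesOverPrime ℓ) {σ : GQ}
    (hσ : A.IsFrobeniusAt σ ℓ) : cyc n σ = ℓ := by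
  refine cyc_eq_of_forall n σ ℓ fun x hx => ?_
  have hmem : x ∈ A := by
    rw [← A.valuation_le_one_iff]
    have h1 : A.valuation x ^ n = 1 := by rw [← map_pow, hx, map_one]
    by_contra h
    push Not at h
    exact absurd h1 (ne_of_gt (one_lt_pow₀ h (NeZero.ne n)))
  refine eq_of_sub_mem_nonunits hA hℓn ?_ ?_ (NeZero.ne n) (sub_pow_mem_nonunits hσ hmem)
  · rw [← map_pow, hx, map_one]
  · rw [← pow_mul, mul_comm, pow_mul, hx, one_pow]

theorem cyc_inertia {n : ℕ} [NeZero n] {ℓ : ℕ} (hℓn : Nat.Coprime ℓ n)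
    {A : ValuationSubring (AlgebraicClosure ℚ)} (hA : A.LiesOverPrime ℓ) {σ : GQ}
    (hσ : σ ∈ A.inertiaSubgroupIn ℚ) : cyc n σ = 1 := by
  have := cyc_eq_of_forall n σ 1 fun x hx => ?_
  · simpa using this
  have hmem : x ∈ A := by
    rw [← A.valuation_le_one_iff]
    have h1 : A.valuation x ^ n = 1 := by rw [← map_pow, hx, map_one]
    by_contra h
    push Not at h
    exact absurd h1 (ne_of_gt (one_lt_pow₀ h (NeZero.ne n)))
  refine eq_of_sub_mem_nonunits hA hℓn ?_ ?_ (NeZero.ne n) ?_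
  · rw [← map_pow, hx, map_one]
  · rw [pow_one, hx]
  · rw [pow_one]
    exact sub_mem_nonunits_of_mem_inertia hσ hmem

/-- the cyclotomic character is trivial on an open subgroup -/
theorem exists_level_cyc (n : ℕ) [NeZero n] : ∃ L : IntermediateField ℚ (AlgebraicClosure ℚ),
    FiniteDimensional ℚ L ∧ ∀ σ : GQ, (∀ x ∈ L, σ x = x) → cyc n σ = 1 := by
  refine ⟨IntermediateField.adjoin ℚ {(exists_zeta n).choose}, ?_, fun σ hσ => ?_⟩
  · exact IntermediateField.adjoin.finiteDimensional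
      (Algebra.IsAlgebraic.isAlgebraic (R := ℚ) _).isIntegral
  · have := cyc_eq_of_forall n σ 1 fun x hx => ?_
    · simpa using this
    obtain ⟨i, -, rfl⟩ := (exists_zeta n).choose_spec.eq_pow_of_pow_eq_one hx
    rw [map_pow, hσ _ (IntermediateField.subset_adjoin ℚ _ rfl), pow_one]

theorem cyc_complexConjugation (n : ℕ) [NeZero n] : cyc n complexConjugation = -1 := by
  have h1 : cyc n complexConjugation = ((n - 1 : ℕ) : ZMod n) := by
    refine cyc_eq_of_forall n _ _ fun x hx => ?_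
    have hx0 : x ≠ 0 := by
      rintro rfl
      rw [zero_pow (NeZero.ne n)] at hx
      exact zero_ne_one hx
    have h2 : x ^ (n - 1) = x⁻¹ := by
      apply eq_inv_of_mul_eq_one_left
      rw [← pow_succ, Nat.sub_add_cancel (NeZero.one_le), hx]
    rw [h2]
    apply complexEmbedding.injective
    change complexEmbedding (complexConjugation x) = complexEmbedding x⁻¹
    rw [complexEmbedding_complexConjugation, map_inv₀]
    have h3 : complexEmbedding x ^ n = 1 := by rw [← map_pow, hx, map_one]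
    have h4 : ‖complexEmbedding x‖ = 1 := Complex.norm_eq_one_of_pow_eq_one h3 (NeZero.ne n)
    exact (Complex.inv_eq_conj h4).symm
  rw [h1, Nat.cast_sub NeZero.one_le]
  simp

/-- compatibility -/
theorem castHom_cyc {m n : ℕ} [NeZero m] [NeZero n] (h : m ∣ n) (σ : GQ) :
    ZMod.castHom h (ZMod m) (cyc n σ) = cyc m σ := by
  have := cyc_eq_of_forall m σ (cyc n σ).val fun x hx => by
    refine apply_eq_pow_cyc n σ ?_
    obtain ⟨k, rfl⟩ := h
    rw [pow_mul, hx, one_pow]
  rw [this]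
  simp [ZMod.natCast_val]

end Fermat.Agent.GalRep
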