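import Fermat.Agent.GalRep.S31Cond
import Fermat.Prelude.Def_GaloisRep_LocalConditions

set_option autoImplicit false
set_option linter.style.haveILetI false
set_option linter.unusedSectionVars false

/-!
# Local information at bad primes: S34 from the unipotence of inertia on Hecke modules
-/

namespace Fermat.Agent.GalRep

open IsLocalRing Matrix Polynomial
open Fermat.Agent.DefRing (toMatRep toMatRep_apply toMatRep_cont MatCont)

theorem isLocConst_det {A : Type} [CommRing A] [IsLocalRing A]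
    (r : GQ →* Matrix (Fin 2) (Fin 2) A) (hr : MatCont r) (n : ℕ) :
    IsLocConst (fun g => Ideal.Quotient.mk (maximalIdeal A ^ n) (r g).det) := by
  obtain ⟨L, hL, h⟩ := hr n
  refine ⟨L, hL, fun σ hσ g => ?_⟩
  have h1 : (Ideal.Quotient.mk (maximalIdeal A ^ n)).mapMatrix (r σ) = 1 := by
    ext i j
    have h2 := h σ hσ i j
    rw [Matrix.sub_apply, ← Ideal.Quotient.eq] at h2
    rw [RingHom.mapMatrix_apply, Matrix.map_apply, h2, Matrix.one_apply, Matrix.one_apply]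
    split_ifs
    · exact map_one _
    · exact map_zero _
  have h3 : Ideal.Quotient.mk (maximalIdeal A ^ n) (r σ).det = 1 := by
    rw [RingHom.map_det, h1, Matrix.det_one]
  change Ideal.Quotient.mk _ (r (g * σ)).det = Ideal.Quotient.mk _ (r g).det
  rw [map_mul, Matrix.det_mul, map_mul, h3, mul_one]

/-- The characteristic polynomial of an adic representation with given Frobenius traces. -/
theorem charpoly_eq_of_frobenius {A : Type} [CommRing A] [IsLocalRing A] [IsNoetherianRing A]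
    [IsAdicComplete (maximalIdeal A) A] {p : ℕ} [hp : Fact p.Prime] {b : ℕ → A} {S : Set ℕ}
    {K : Set GQ} {t D : GQ → A} (h : IsGoodPseudoRep (maximalIdeal A) b S p K t D)
    (hS : S.Finite)
    (ρ : GaloisRepAdic A) (hρ : ∀ ℓ : ℕ, ℓ.Prime → ℓ ∉ S →
      ∀ P : ValuationSubring (AlgebraicClosure ℚ), P.LiesOverPrime ℓ →
        ∀ σ : AlgebraicClosure ℚ ≃ₐ[ℚ] AlgebraicClosure ℚ, P.IsFrobeniusAt σ ℓ →
          LinearMap.charpoly (ρ.ρ σ) = X ^ 2 - C (b ℓ) * X + C ((ℓ : A))) (g : GQ) :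
    LinearMap.charpoly (ρ.ρ g) = X ^ 2 - C (t g) * X + C (D g) := by
  let e : Module.Basis (Fin 2) A ρ.V := Module.finBasisOfFinrankEq A ρ.V ρ.finrank_eq
  have key : ∀ g, (toMatRep ρ e g).trace = t g := by
    intro g
    refine eq_of_forall_mk_eq (maximalIdeal A) fun n => ?_
    have h1 := (isPseudoRep_of_matrix (toMatRep ρ e)).comp
      (Ideal.Quotient.mk (maximalIdeal A ^ n))
    have h2 := h.isPseudoRep.comp (Ideal.Quotient.mk (maximalIdeal A ^ n))
    refine congrFun (IsPseudoRep.t_eq_of_frobenius h1 h2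
      (isLocConst_trace _ (toMatRep_cont ρ e) n) (h.cont n) hS ?_) g
    intro ℓ hℓ hℓS P hP τ hτ
    obtain ⟨h3, h4⟩ := h.frobenius ℓ hℓ hℓS P hP τ hτ
    obtain ⟨h5, h6⟩ := trace_det_of_charpoly (ρ.ρ τ) e (hρ ℓ hℓ hℓS P hP τ hτ)
    rw [toMatRep_apply, h5, h6, h3, h4]
    exact ⟨rfl, rfl⟩
  have key2 : ∀ g, (toMatRep ρ e g).det = D g := by
    intro g
    refine eq_of_forall_mk_eq (maximalIdeal A) fun n => ?_
    have hD : IsLocConst (fun g => Ideal.Quotient.mk (maximalIdeal A ^ n) (D g)) := by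
      have h1 := (isLocConst_cyc (p ^ n)).comp
        (fun z => ((z.val : ℕ) : A ⧸ maximalIdeal A ^ n))
      have h2 : (fun g => Ideal.Quotient.mk (maximalIdeal A ^ n) (D g)) =
          fun g => (((cyc (p ^ n) g).val : ℕ) : A ⧸ maximalIdeal A ^ n) := funext (h.D_eq n)
      rw [h2]
      exact h1
    refine congrFun (IsLocConst.eq_of_forall_pow (isLocConst_det _ (toMatRep_cont ρ e) n) hD
      hS ?_) g
    intro ℓ hℓ hℓS P hP τ hτ m
    obtain ⟨h3, h4⟩ := h.frobenius ℓ hℓ hℓS P hP τ hτ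
    obtain ⟨h5, h6⟩ := trace_det_of_charpoly (ρ.ρ τ) e (hρ ℓ hℓ hℓS P hP τ hτ)
    have h7 : D (τ ^ m) = (ℓ : A) ^ m := by
      induction m with
      | zero => rw [pow_zero, h.isPseudoRep.D_one, pow_zero]
      | succ m ih => rw [pow_succ, h.isPseudoRep.D_mul, ih, h4, pow_succ]
    change Ideal.Quotient.mk _ (toMatRep ρ e (τ ^ m)).det = Ideal.Quotient.mk _ (D (τ ^ m))
    rw [h7, map_pow, Matrix.det_pow, toMatRep_apply, h6]
  rw [← LinearMap.charpoly_toMatrix (ρ.ρ g) e, Matrix.charpoly_fin_two, ← toMatRep_apply, key, key2]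

variable {p : ℕ} {N : ℕ} [NeZero N]

/-- The payload: inertia at `q` acts unipotently up to a bounded constant. -/
def UnipAt (C q : ℕ) {R X : Type} [CommRing R] [AddCommGroup X] [Module R X]
    (ρ : GQ →* Module.End R X) : Prop :=
  ∀ A : ValuationSubring (AlgebraicClosure ℚ), A.LiesOverPrime q →
    ∀ σ ∈ A.inertiaSubgroupIn ℚ, ∀ x : X, C • (ρ σ (ρ σ x) - 2 • ρ σ x + x) = 0

/-- Hecke modules on which inertia at `q` is unipotent up to a bounded constant. -/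
def HasUnip (N p q : ℕ) [NeZero N] : Prop :=
  ∃ C : ℕ, 0 < C ∧ ∀ n : ℕ, ∃ (X : Type) (_ : AddCommGroup X) (_ : Module (T₀ N p) X)
    (ρ : GQ →* Module.End (T₀ N p) X), IsBGM N p n X ρ ∧ UnipAt C q ρ

theorem unip_trace [hp : Fact p.Prime] {B : Type*} [CommRing B] {I : Ideal B} [IsAdicComplete I B]
    {R : Type} [CommRing R] {a : ℕ → R} {S : Set ℕ} (hpI : (p : B) ∈ I) (χ : R →+* B)
    (htf : ∀ (n : ℕ) (x : B), n ≠ 0 → (n : B) * x = 0 → x = 0)
    {C q : ℕ} (hC : 0 < C) (hq : q.Prime) (hqp : q ≠ p) {t : GQ → B}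
    (ht : ∀ n g, ∃ (X : Type) (i₁ : AddCommGroup X) (i₂ : Module R X)
        (ρ : GQ →* Module.End R X), IsHG a S p n ρ ∧ UnipAt C q ρ ∧ ∃ (m : ℕ) (r : R),
          (∀ x : X, p ^ m • x = 0) ∧
          Ideal.Quotient.mk (I ^ n) (t g) = Ideal.Quotient.mk (I ^ n) (χ r) ∧
          ∀ x : X, ρ g x + (cyc (p ^ m) g).val • ρ g⁻¹ x = r • x)
    {A : ValuationSubring (AlgebraicClosure ℚ)} (hA : A.LiesOverPrime q) {σ : GQ}
    (hσ : σ ∈ A.inertiaSubgroupIn ℚ) : t σ = 2 := by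
  have h0 : (C : B) * (t σ - 2) = 0 := by
    refine eq_of_forall_mk_eq I fun n => ?_
    obtain ⟨X, i₁, i₂, ρ, hρ, hU, m, r, hm, htr, hr⟩ := ht n σ
    have hcyc : cyc (p ^ m) σ = 1 := cyc_inertia
      (Nat.Coprime.pow_right _ ((Nat.coprime_primes hq hp.out).mpr hqp)) hA hσ
    have hone : ∀ x : X, (cyc (p ^ m) σ).val • x = x := by
      intro x
      rw [hcyc]
      rcases Nat.eq_zero_or_pos m with hm0 | hm0
      · have h2 := hm x
        rw [hm0, pow_zero, one_smul] at h2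
        rw [h2, smul_zero]
      · haveI : Fact (1 < p ^ m) := ⟨Nat.one_lt_pow hm0.ne' hp.out.one_lt⟩
        rw [ZMod.val_one, one_smul]
    have hinv : ∀ x : X, ρ σ (ρ σ⁻¹ x) = x := fun x => by
      rw [← Module.End.mul_apply, ← map_mul, mul_inv_cancel, map_one, Module.End.one_apply]
    have h1 : ∀ x : X, ((C : R) * (r - 2)) • x = 0 := by
      intro x
      have e1 := hU A hA σ hσ (ρ σ⁻¹ x)
      rw [hinv] at e1
      have e2 : (r - 2) • x = ρ σ x - 2 • x + ρ σ⁻¹ x := by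
        rw [sub_smul, ← hr x, hone, ofNat_smul_eq_nsmul]
        abel
      rw [mul_smul, e2, Nat.cast_smul_eq_nsmul]
      exact e1
    obtain ⟨b, hb⟩ := hρ.faithful _ h1
    have h2 : (C : B) * (χ r - 2) = (p : B) ^ n * χ b := by
      have := congrArg χ hb
      rw [map_mul, map_sub, map_mul, map_pow, map_natCast, map_natCast, map_ofNat] at this
      exact this
    have h3 : Ideal.Quotient.mk (I ^ n) ((C : B) * (χ r - 2)) = 0 := by
      rw [h2, Ideal.Quotient.eq_zero_iff_mem]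
      exact Ideal.mul_mem_right _ _ (Ideal.pow_mem_pow hpI n)
    rw [map_zero, ← h3, map_mul, map_mul, map_sub, map_sub, htr]
  have h1 := htf C _ hC.ne' h0
  exact sub_eq_zero.1 h1

variable {S : Finset ℕ}
  {𝒪 : Type} [CommRing 𝒪] [IsDomain 𝒪] [IsDiscreteValuationRing 𝒪]
  [IsAdicComplete (IsLocalRing.maximalIdeal 𝒪) 𝒪]
  {θ : CuspForm.heckeAlgebra N 2 (↑S : Set ℕ) →+* IsLocalRing.ResidueField 𝒪}
  {T : Type} [CommRing T] [IsLocalRing T] [IsNoetherianRing T]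
  [IsAdicComplete (IsLocalRing.maximalIdeal T) T] [Algebra 𝒪 T] [IsLocalHom (algebraMap 𝒪 T)]
  [Module.Finite 𝒪 T] [Module.Free 𝒪 T]

theorem s34_of_unip [CharZero 𝒪] (hp : p.Prime)
    (hp𝒪 : (p : 𝒪) ∈ IsLocalRing.maximalIdeal 𝒪) (hpS : p ∈ S)
    (hNS : ∀ q : ℕ, q.Prime → q ∣ N → q ∈ S)
    (H : CuspForm.HeckeGaloisRepDatum N (↑S : Set ℕ) 𝒪 θ T) (q : ℕ) (hq : q.Prime) (hqp : q ≠ p)
    (hU : HasUnip N p q) :
    H.ρ.IsUnipotentOnInertiaAt q := by
  haveI : Fact p.Prime := ⟨hp⟩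
  obtain ⟨C, hC, hU⟩ := hU
  have hpT : (p : T) ∈ IsLocalRing.maximalIdeal T := by
    rw [← map_natCast (algebraMap 𝒪 T), IsLocalRing.mem_maximalIdeal]
    rw [IsLocalRing.mem_maximalIdeal] at hp𝒪
    exact fun h => hp𝒪 ((isUnit_map_iff (algebraMap 𝒪 T) (p : 𝒪)).mp h)
  have hNS' : ∀ q : ℕ, q.Prime → q ∣ N → q ∈ (↑S : Set ℕ) := hNS
  obtain ⟨t, D, h, hloc⟩ := exists_goodPseudoRep' (a := heckeFun N (↑S : Set ℕ)) hpT H.π
    S.finite_toSet hpS (inertiaSet N p)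
    (fun _ hσ k => cyc_eq_one_of_mem_inertiaSet hσ k)
    (fun X i₁ i₂ ρ => UnipAt C q ρ)
    (exists_isHG' hpS hNS' (fun X i₁ i₂ ρ => UnipAt C q ρ) _ (fun X i₁ i₂ ρ h => h) hU)
  intro A hA σ hσ
  have h1 := charpoly_eq_of_frobenius h S.finite_toSet H.ρ (fun ℓ hℓ hℓS P hP τ hτ => by
    have hℓN : ¬ ℓ ∣ N := fun h => hℓS (hNS ℓ hℓ h)
    rw [heckeFun_eq hℓ hℓN hℓS]
    exact H.charpoly_frob ℓ hℓ hℓN hℓS P hP τ hτ) σ
  have htf : ∀ (n : ℕ) (x : T), n ≠ 0 → (n : T) * x = 0 → x = 0 := by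
    intro n x hn hx
    have h2 : ((n : 𝒪)) • x = 0 := by
      rw [Algebra.smul_def, map_natCast, hx]
    exact (smul_eq_zero.1 h2).resolve_left (Nat.cast_ne_zero.2 hn)
  have h2 : t σ = 2 := unip_trace hpT H.π htf hC hq hqp hloc hA hσ
  have h3 : D σ = 1 := by
    refine eq_of_forall_mk_eq (maximalIdeal T) fun n => ?_
    have hcyc : cyc (p ^ n) σ = 1 := cyc_inertia
      (Nat.Coprime.pow_right _ ((Nat.coprime_primes hq hp).mpr hqp)) hA hσ
    rw [h.D_eq, hcyc, ← h.isPseudoRep.D_one, h.D_eq, map_one]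
  rw [h1, h2, h3]
  simp only [map_ofNat, map_one]
  ring

end Fermat.Agent.GalRep
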