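import Fermat.Agent.GalRep.CHAlg

set_option autoImplicit false

/-!
# Two-dimensional pseudo-representations and their realisation over fields
-/

namespace Fermat.Agent.GalRep

/-- A two-dimensional pseudo-representation (trace `t`, determinant `D`). -/
structure IsPseudoRep {G R : Type*} [Group G] [CommRing R] (t D : G → R) : Prop where
  t_one : t 1 = 2
  D_one : D 1 = 1
  D_mul : ∀ g h, D (g * h) = D g * D h
  rel : ∀ g h, t (g * h) + D h * t (g * h⁻¹) = t g * t h

namespace IsPseudoRep

section

variable {G R : Type*} [Group G] [CommRing R] {t D : G → R}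

theorem D_mul_D_inv (h : IsPseudoRep t D) (g : G) : D g * D g⁻¹ = 1 := by
  rw [← h.D_mul, mul_inv_cancel, h.D_one]

theorem D_mul_t_inv (h : IsPseudoRep t D) (g : G) : D g * t g⁻¹ = t g := by
  have := h.rel 1 g
  rw [one_mul, one_mul, h.t_one] at this
  linear_combination this

theorem t_mul_comm (h : IsPseudoRep t D) (g g' : G) : t (g * g') = t (g' * g) := by
  have h1 := h.rel g g'
  have h2 := h.rel g' g
  have h3 := h.D_mul_t_inv (g * g'⁻¹)
  rw [mul_inv_rev, inv_inv, h.D_mul] at h3
  have h4 := h.D_mul_D_inv g'
  linear_combination h1 - h2 + D g' * h3 - D g * t (g' * g⁻¹) * h4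

theorem rel' (h : IsPseudoRep t D) (g g' : G) : t (g * g') + D g * t (g⁻¹ * g') = t g * t g' := by
  have h1 := h.rel g' g
  rw [h.t_mul_comm g' g, h.t_mul_comm g' g⁻¹] at h1
  linear_combination h1

theorem t_sq (h : IsPseudoRep t D) (g : G) : t (g * g) + 2 * D g = t g * t g := by
  have := h.rel g g
  rw [mul_inv_cancel, h.t_one] at this
  linear_combination this

/-- the polarized Cayley-Hamilton identity on group elements -/
theorem polar (h : IsPseudoRep t D) (g g' k : G) :
    t (g * g' * k) + t (g' * g * k) =
      t g * t (g' * k) + t g' * t (g * k) + (t (g * g') - t g * t g') * t k := by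
  have h1 := h.rel' g (g' * k)
  have h2 := h.rel' g' (g * k)
  have h3 := h.rel' (g'⁻¹ * g) k
  rw [mul_inv_rev, inv_inv, h.D_mul] at h3
  have h4 := h.rel g g'
  have h5 := h.t_mul_comm g g'⁻¹
  have h6 := h.D_mul_D_inv g'
  rw [← mul_assoc] at h1 h2
  have e1 : g⁻¹ * (g' * k) = g⁻¹ * g' * k := (mul_assoc _ _ _).symm
  have e2 : g'⁻¹ * (g * k) = g'⁻¹ * g * k := (mul_assoc _ _ _).symm
  rw [e1] at h1
  rw [e2] at h2
  rw [← h5] at h3
  linear_combination h1 + h2 - D g' * h3 - t k * h4 + D g * t (g⁻¹ * g' * k) * h6

theorem comp {R' : Type*} [CommRing R'] (h : IsPseudoRep t D) (f : R →+* R') :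
    IsPseudoRep (fun g => f (t g)) (fun g => f (D g)) where
  t_one := by rw [h.t_one, map_ofNat]
  D_one := by rw [h.D_one, map_one]
  D_mul g g' := by rw [h.D_mul, map_mul]
  rel g g' := by rw [← map_mul, ← map_mul, ← map_add, h.rel]

end

section field

variable {G k : Type*} [Group G] [Field k] {t D : G → k}

variable (t) in
/-- linear extension to the group algebra -/
noncomputable def lin : MonoidAlgebra k G →ₗ[k] k where
  toFun x := x.coeff.sum fun g r => r * t g
  map_add' x y := by
    rw [MonoidAlgebra.coeff_add]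
    exact Finsupp.sum_add_index' (by simp) (by intros; ring)
  map_smul' c x := by
    rw [MonoidAlgebra.coeff_smul, Finsupp.sum_smul_index (by simp), RingHom.id_apply, smul_eq_mul,
      Finsupp.mul_sum]
    exact Finsupp.sum_congr fun g _ => by ring

omit [Group G] in
theorem lin_single (g : G) (r : k) : lin t (MonoidAlgebra.single g r) = r * t g := by
  simp [lin]

theorem lin_of (g : G) : lin t (MonoidAlgebra.of k G g) = t g := by
  simp [lin_single]

theorem induction_of {p : MonoidAlgebra k G → Prop} (x : MonoidAlgebra k G) (_h0 : p 0)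
    (hadd : ∀ x y, p x → p y → p (x + y)) (hof : ∀ g : G, p (MonoidAlgebra.of k G g))
    (hsmul : ∀ (r : k) x, p x → p (r • x)) : p x := by
  induction x using MonoidAlgebra.induction_on with
  | of g => exact hof g
  | add x y hx hy => exact hadd x y hx hy
  | smul r x hx => exact hsmul r x hx

theorem lin_mul_comm (h : IsPseudoRep t D) (x y : MonoidAlgebra k G) :
    lin t (x * y) = lin t (y * x) := by
  induction x using induction_of with
  | _h0 => simp
  | hadd x x' hx hx' => rw [add_mul, mul_add, map_add, map_add, hx, hx']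
  | hsmul r x hx => rw [smul_mul_assoc, mul_smul_comm, map_smul, map_smul, hx]
  | hof g =>
    induction y using induction_of with
    | _h0 => simp
    | hadd y y' hy hy' => rw [add_mul, mul_add, map_add, map_add, hy, hy']
    | hsmul r y hy => rw [smul_mul_assoc, mul_smul_comm, map_smul, map_smul, hy]
    | hof g' => rw [← map_mul, ← map_mul, lin_of, lin_of, h.t_mul_comm]

theorem lin_polar (h : IsPseudoRep t D) (x y z : MonoidAlgebra k G) :
    lin t ((x * y + y * x) * z) = lin t ((lin t x • y + lin t y • x +
      (lin t (x * y) - lin t x * lin t y) • (1 : MonoidAlgebra k G)) * z) := by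
  simp only [add_mul, smul_mul_assoc, one_mul, map_add, map_smul, smul_eq_mul]
  induction x using induction_of with
  | _h0 => simp
  | hadd x x' hx hx' =>
    simp only [add_mul, mul_add, map_add] at hx hx' ⊢
    linear_combination hx + hx'
  | hsmul r x hx =>
    simp only [smul_mul_assoc, mul_smul_comm, map_smul, smul_eq_mul] at hx ⊢
    linear_combination r * hx
  | hof g =>
    induction y using induction_of with
    | _h0 => simp
    | hadd y y' hy hy' =>
      simp only [add_mul, mul_add, map_add] at hy hy' ⊢
      linear_combination hy + hy'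
    | hsmul r y hy =>
      simp only [smul_mul_assoc, mul_smul_comm, map_smul, smul_eq_mul] at hy ⊢
      linear_combination r * hy
    | hof g' =>
      induction z using induction_of with
      | _h0 => simp
      | hadd z z' hz hz' =>
        simp only [mul_add, map_add] at hz hz' ⊢
        linear_combination hz + hz'
      | hsmul r z hz =>
        simp only [mul_smul_comm, map_smul, smul_eq_mul] at hz ⊢
        linear_combination r * hz
      | hof k =>
        simp only [← map_mul, lin_of]
        exact h.polar g g' k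

/-- the radical of the trace form, as a congruence -/
def con (h : IsPseudoRep t D) : RingCon (MonoidAlgebra k G) where
  r x y := ∀ z, lin t (x * z) = lin t (y * z)
  iseqv := ⟨fun _ _ => rfl, fun h z => (h z).symm, fun h h' z => (h z).trans (h' z)⟩
  add' {w x y z} h1 h2 u := by rw [add_mul, add_mul, map_add, map_add, h1, h2]
  mul' {w x y z} h1 h2 u := by
    rw [mul_assoc, h1, h.lin_mul_comm, mul_assoc, h2, h.lin_mul_comm, mul_assoc x z u,
      h.lin_mul_comm x (z * u), mul_assoc z u x, h.lin_mul_comm (u * x) z]

/-- the Cayley-Hamilton quotient -/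
abbrev CH (h : IsPseudoRep t D) : Type _ := h.con.Quotient

/-- the trace on the Cayley-Hamilton quotient -/
noncomputable def chTrace (h : IsPseudoRep t D) : h.CH →ₗ[k] k where
  toFun := Quotient.lift (fun x => lin t x) (fun x y hxy => by
    have h1 : ∀ z, lin t (x * z) = lin t (y * z) := hxy
    simpa using h1 1)
  map_add' := by
    rintro ⟨x⟩ ⟨y⟩
    exact map_add (lin t) x y
  map_smul' := by
    rintro c ⟨x⟩
    exact map_smul (lin t) c x

theorem chTrace_coe (h : IsPseudoRep t D) (x : MonoidAlgebra k G) :
    h.chTrace (x : h.CH) = lin t x := rfl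

theorem isCHTrace (h : IsPseudoRep t D) : IsCHTrace h.chTrace where
  map_one := by
    have h1 : ((1 : MonoidAlgebra k G) : h.CH) = 1 := rfl
    rw [← h1, chTrace_coe, MonoidAlgebra.one_def, lin_single, one_mul, h.t_one]
  map_mul_comm := by
    rintro ⟨x⟩ ⟨y⟩
    exact h.lin_mul_comm x y
  polar := by
    rintro ⟨x⟩ ⟨y⟩
    exact (RingCon.eq h.con).mpr (h.lin_polar x y)

/-- the universal homomorphism -/
noncomputable def chHom (h : IsPseudoRep t D) : G →* h.CH :=
  (h.con.mk' : MonoidAlgebra k G →* h.CH).comp (MonoidAlgebra.of k G)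

theorem chTrace_chHom (h : IsPseudoRep t D) (g : G) : h.chTrace (h.chHom g) = t g := lin_of g

theorem chHom_sq (h : IsPseudoRep t D) (g : G) :
    h.chHom g * h.chHom g = h.chTrace (h.chHom g) • h.chHom g - D g • (1 : h.CH) := by
  rw [chTrace_chHom]
  refine (RingCon.eq h.con).mpr ?_
  intro z
  simp only [sub_mul, smul_mul_assoc, one_mul, map_sub, map_smul, smul_eq_mul]
  induction z using induction_of with
  | _h0 => simp
  | hadd z z' hz hz' =>
    simp only [mul_add, map_add] at hz hz' ⊢
    linear_combination hz + hz'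
  | hsmul r z hz =>
    simp only [mul_smul_comm, map_smul, smul_eq_mul] at hz ⊢
    linear_combination r * hz
  | hof k =>
    simp only [← map_mul, lin_of]
    have := h.rel' g (g * k)
    rw [inv_mul_cancel_left, ← mul_assoc] at this
    linear_combination this

/-- **Realisation of two-dimensional pseudo-representations over fields.** -/
theorem exists_matrix (h : IsPseudoRep t D) {g₀ : G} {α β : k} (hαβ : α ≠ β)
    (hs : α + β = t g₀) (hp : α * β = D g₀) :
    ∃ ρ : G →* Matrix (Fin 2) (Fin 2) k, (∀ g, (ρ g).trace = t g) ∧ (∀ g, (ρ g).det = D g) ∧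
      ∀ i j, (fun g => ρ g i j) ∈ Submodule.span k (Set.range fun (x : G) (g : G) => t (x * g)) := by
  obtain ⟨he, hTe⟩ := h.isCHTrace.quad (c := h.chHom g₀) (h.chHom_sq g₀) hαβ
    (by rw [h.chTrace_chHom, hs]) hp
  obtain ⟨ρ, h1, h2, h3⟩ := h.isCHTrace.exists_matrix h.chHom D h.chHom_sq he hTe
  refine ⟨ρ, fun g => by rw [h1, h.chTrace_chHom], h2, fun i j => ?_⟩
  obtain ⟨⟨b⟩, ⟨b'⟩, hb⟩ := h3 i j
  have hb' : (fun g => ρ g i j) = fun g => lin t (b' * b * MonoidAlgebra.of k G g) := by
    ext g
    rw [hb g]
    change lin t (b * MonoidAlgebra.of k G g * b') = _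
    rw [h.lin_mul_comm, mul_assoc]
  rw [hb']
  generalize b' * b = x
  induction x using induction_of with
  | _h0 => simp only [zero_mul, map_zero]; exact Submodule.zero_mem _
  | hadd x y hx hy => simp only [add_mul, map_add]; exact Submodule.add_mem _ hx hy
  | hsmul r x hx =>
    simp only [smul_mul_assoc, map_smul]
    exact Submodule.smul_mem _ r hx
  | hof x =>
    simp only [← map_mul, lin_of]
    exact Submodule.subset_span ⟨x, rfl⟩

end field

end IsPseudoRep

end Fermat.Agent.GalRep
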