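import Fermat.Agent.GalRep.Lattice
import Fermat.Agent.GalRep.Faithful
import Fermat.Agent.S22

set_option autoImplicit false
set_option linter.style.haveILetI false
set_option linter.unusedSectionVars false

/-!
# The pseudo-representation attached to a character of the weight two Hecke algebra
-/

namespace Fermat.Agent.GalRep

open Polynomial

variable {N p : ℕ} [NeZero N] [hp : Fact p.Prime] {S : Set ℕ}

theorem notMem_badSet (hpS : p ∈ S) (hNS : ∀ q : ℕ, q.Prime → q ∣ N → q ∈ S) {ℓ : ℕ}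
    (hℓ : ℓ.Prime) (hℓS : ℓ ∉ S) : ℓ ∉ badSet N p := by
  intro h
  rcases (Nat.Prime.dvd_mul hℓ).mp h with h | h
  · exact hℓS (hNS ℓ hℓ h)
  · rw [Nat.prime_dvd_prime_iff_eq hℓ hp.out] at h
    exact hℓS (h ▸ hpS)

theorem heckeAlgebra_le (hpS : p ∈ S) (hNS : ∀ q : ℕ, q.Prime → q ∣ N → q ∈ S) :
    CuspForm.heckeAlgebra N 2 S ≤ CuspForm.heckeAlgebra N 2 (badSet N p) := by
  refine Algebra.adjoin_mono ?_
  rintro T (⟨ℓ, hℓ, hℓN, hℓS, rfl⟩ | ⟨q, hqN, hq, hqS, rfl⟩)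
  · exact CuspForm.heckeTLin_mem_heckeGenerators hℓ hℓN (notMem_badSet hpS hNS hℓ hℓS)
  · exact absurd (hNS q hq hqN) hqS

/-- the inclusion of Hecke algebras -/
noncomputable def incl (hpS : p ∈ S) (hNS : ∀ q : ℕ, q.Prime → q ∣ N → q ∈ S) :
    CuspForm.heckeAlgebra N 2 S →+* T₀ N p :=
  (Subalgebra.inclusion (heckeAlgebra_le hpS hNS)).toRingHom

theorem incl_injective (hpS : p ∈ S) (hNS : ∀ q : ℕ, q.Prime → q ∣ N → q ∈ S) :
    Function.Injective (incl (p := p) hpS hNS) :=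
  Subalgebra.inclusion_injective _

open Classical in
/-- the Hecke operators as a function on `ℕ` (zero at the bad indices) -/
noncomputable def heckeFun (N : ℕ) [NeZero N] (S : Set ℕ) (ℓ : ℕ) : CuspForm.heckeAlgebra N 2 S :=
  if h : ℓ.Prime ∧ ¬ ℓ ∣ N ∧ ℓ ∉ S then CuspForm.heckeAlgebra.T h.1 h.2.1 h.2.2 else 0

theorem heckeFun_eq {ℓ : ℕ} (hℓ : ℓ.Prime) (hℓN : ¬ ℓ ∣ N) (hℓS : ℓ ∉ S) :
    heckeFun N S ℓ = CuspForm.heckeAlgebra.T hℓ hℓN hℓS := dif_pos ⟨hℓ, hℓN, hℓS⟩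

theorem incl_heckeFun (hpS : p ∈ S) (hNS : ∀ q : ℕ, q.Prime → q ∣ N → q ∈ S) {ℓ : ℕ}
    (hℓ : ℓ.Prime) (hℓS : ℓ ∉ S) :
    incl hpS hNS (heckeFun N S ℓ) = Tℓ hℓ (notMem_badSet hpS hNS hℓ hℓS) := by
  rw [heckeFun_eq hℓ (fun h => hℓS (hNS ℓ hℓ h)) hℓS]
  rfl

/-- a common bound for divisibility by powers of `p` -/
theorem exists_incl_bound (hpS : p ∈ S) (hNS : ∀ q : ℕ, q.Prime → q ∣ N → q ∈ S) :
    ∃ c : ℕ, ∀ (n : ℕ) (r : CuspForm.heckeAlgebra N 2 S) (b : T₀ N p),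
      incl hpS hNS r = p ^ (n + c) • b → ∃ b' : CuspForm.heckeAlgebra N 2 S, r = p ^ n • b' := by
  haveI : Module.Finite ℤ (T₀ N p) := Fermat.Agent.S22.result N 2 (badSet N p)
  let f : CuspForm.heckeAlgebra N 2 S →ₗ[ℤ] T₀ N p := (incl hpS hNS).toAddMonoidHom.toIntLinearMap
  obtain ⟨c, hc⟩ := exists_pow_torsion_bound (Q := T₀ N p ⧸ LinearMap.range f) p
  refine ⟨c, fun n r b h => ?_⟩
  have h2 : p ^ (n + c) • (Submodule.Quotient.mk b : T₀ N p ⧸ LinearMap.range f) = 0 := by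
    rw [← Submodule.Quotient.mk_smul, Submodule.Quotient.mk_eq_zero, ← h]
    exact ⟨r, rfl⟩
  have h3 := hc _ _ h2
  rw [← Submodule.Quotient.mk_smul, Submodule.Quotient.mk_eq_zero] at h3
  obtain ⟨b', hb'⟩ := h3
  refine ⟨b', incl_injective hpS hNS ?_⟩
  have hb'' : incl hpS hNS b' = p ^ c • b := hb'
  rw [map_nsmul, hb'', h, smul_smul, pow_add]

/-- the elements which act trivially on every module -/
def inertiaSet (N p : ℕ) : Set GQ :=
  {σ | ∃ q : ℕ, q.Prime ∧ q ∉ badSet N p ∧ ∃ A : ValuationSubring (AlgebraicClosure ℚ),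
    A.LiesOverPrime q ∧ σ ∈ A.inertiaSubgroupIn ℚ}

theorem cyc_eq_one_of_mem_inertiaSet {σ : GQ} (hσ : σ ∈ inertiaSet N p) (k : ℕ) :
    cyc (p ^ k) σ = 1 := by
  obtain ⟨q, hq, hqS, A, hA, hσ⟩ := hσ
  refine cyc_inertia ?_ hA hσ
  refine Nat.Coprime.pow_right _ ((Nat.coprime_primes hq hp.out).mpr ?_)
  rintro rfl
  exact hqS (dvd_mul_left q N)

/-- restriction of scalars of the Galois action -/
noncomputable def restrictEnd {R R' X : Type*} [CommRing R] [CommRing R'] [AddCommGroup X] [Module R' X]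
    (f : R →+* R') (ρ : GQ →* Module.End R' X) :
    letI := Module.compHom X f
    GQ →* Module.End R X :=
  letI := Module.compHom X f
  { toFun := fun g =>
      { toFun := ρ g
        map_add' := map_add (ρ g)
        map_smul' := fun r x => map_smul (ρ g) (f r) x }
    map_one' := by ext x; simp
    map_mul' := fun g g' => by ext x; simp }

theorem IsBGM.isHG (hpS : p ∈ S) (hNS : ∀ q : ℕ, q.Prime → q ∣ N → q ∈ S) {n c : ℕ}
    (hc : ∀ (n : ℕ) (r : CuspForm.heckeAlgebra N 2 S) (b : T₀ N p),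
      incl hpS hNS r = p ^ (n + c) • b → ∃ b' : CuspForm.heckeAlgebra N 2 S, r = p ^ n • b')
    {X : Type} [AddCommGroup X] [modX : Module (T₀ N p) X] {ρ : GQ →* Module.End (T₀ N p) X}
    (h : IsBGM N p (n + c) X ρ) :
    letI := Module.compHom X (incl (p := p) hpS hNS)
    IsHG (heckeFun N S) S p n (restrictEnd (incl hpS hNS) ρ) ∧
      ∀ σ ∈ inertiaSet N p, (restrictEnd (incl hpS hNS) ρ) σ = 1 := by
  letI := Module.compHom X (incl (p := p) hpS hNS)
  refine ⟨⟨h.torsion, ?_, ?_, ?_⟩, ?_⟩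
  · obtain ⟨L, hL, hL'⟩ := h.level
    refine ⟨L, hL, fun σ hσ => ?_⟩
    ext x
    change ρ σ x = x
    rw [hL' σ hσ]
    rfl
  · intro ℓ hℓ hℓS A hA σ hσ x
    have h1 := h.frobenius ℓ hℓ (notMem_badSet hpS hNS hℓ hℓS) A hA σ hσ x
    rw [← incl_heckeFun hpS hNS hℓ hℓS] at h1
    exact h1
  · intro r hr
    obtain ⟨b, hb⟩ := h.faithful (incl hpS hNS r) hr
    obtain ⟨b', hb'⟩ := hc n r b hb
    refine ⟨b', ?_⟩
    rw [hb', nsmul_eq_mul]
    push_cast
    rfl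
  · rintro σ ⟨q, hq, hqS, A, hA, hσ⟩
    ext x
    change ρ σ x = x
    rw [h.unramified q hq hqS A hA σ hσ]
    rfl

theorem exists_isHG' (hpS : p ∈ S) (hNS : ∀ q : ℕ, q.Prime → q ∣ N → q ∈ S)
    (Q : ∀ (X : Type) (_ : AddCommGroup X) (_ : Module (T₀ N p) X),
      (GQ →* Module.End (T₀ N p) X) → Prop)
    (QS : ∀ (X : Type) (_ : AddCommGroup X) (_ : Module (CuspForm.heckeAlgebra N 2 S) X),
      (GQ →* Module.End (CuspForm.heckeAlgebra N 2 S) X) → Prop)
    (hQ : ∀ (X : Type) (i₁ : AddCommGroup X) (i₂ : Module (T₀ N p) X)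
      (ρ : GQ →* Module.End (T₀ N p) X), Q X i₁ i₂ ρ →
      QS X i₁ (Module.compHom X (incl (p := p) hpS hNS)) (restrictEnd (incl hpS hNS) ρ))
    (hB : ∀ n : ℕ, ∃ (X : Type) (i₁ : AddCommGroup X) (i₂ : Module (T₀ N p) X)
      (ρ : GQ →* Module.End (T₀ N p) X), IsBGM N p n X ρ ∧ Q X i₁ i₂ ρ) (n : ℕ) :
    ∃ (X : Type) (i₁ : AddCommGroup X) (i₂ : Module (CuspForm.heckeAlgebra N 2 S) X)
      (ρ : GQ →* Module.End (CuspForm.heckeAlgebra N 2 S) X),
        (IsHG (heckeFun N S) S p n ρ ∧ ∀ σ ∈ inertiaSet N p, ρ σ = 1) ∧ QS X i₁ i₂ ρ := by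
  obtain ⟨c, hc⟩ := exists_incl_bound (p := p) hpS hNS
  obtain ⟨X, instX, modX, ρ, h, hQX⟩ := hB (n + c)
  exact ⟨X, instX, _, _, h.isHG hpS hNS hc, hQ X instX modX ρ hQX⟩

theorem exists_isHG (hB : HasBGM N p) (hpS : p ∈ S)
    (hNS : ∀ q : ℕ, q.Prime → q ∣ N → q ∈ S) (n : ℕ) :
    ∃ (X : Type) (_ : AddCommGroup X) (_ : Module (CuspForm.heckeAlgebra N 2 S) X)
      (ρ : GQ →* Module.End (CuspForm.heckeAlgebra N 2 S) X),
        IsHG (heckeFun N S) S p n ρ ∧ ∀ σ ∈ inertiaSet N p, ρ σ = 1 := by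
  obtain ⟨c, hc⟩ := exists_incl_bound (p := p) hpS hNS
  obtain ⟨X, instX, modX, ρ, h⟩ := hB (n + c)
  exact ⟨X, instX, _, _, h.isHG hpS hNS hc⟩

/-- The pseudo-representation attached to a ring homomorphism from the Hecke algebra to
a complete ring. -/
theorem exists_goodPseudoRep_hecke (hB : HasBGM N p) (hS : S.Finite) (hpS : p ∈ S)
    (hNS : ∀ q : ℕ, q.Prime → q ∣ N → q ∈ S) {B : Type*} [CommRing B] {I : Ideal B}
    [IsAdicComplete I B] (hpI : (p : B) ∈ I) (χ : CuspForm.heckeAlgebra N 2 S →+* B) :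
    ∃ t D : GQ → B, IsGoodPseudoRep I (fun ℓ => χ (heckeFun N S ℓ)) S p (inertiaSet N p) t D :=
  exists_goodPseudoRep hpI χ hS hpS (inertiaSet N p)
    (fun _ hσ k => cyc_eq_one_of_mem_inertiaSet hσ k) (exists_isHG hB hpS hNS)

/-- From good pseudo-representations to adic Galois representations. -/
theorem IsGoodPseudoRep.exists_galoisRepAdic {B : Type} [CommRing B] [IsDomain B]
    [IsDiscreteValuationRing B] (h2 : (2 : B) ≠ 0) {b : ℕ → B} {K : Set GQ} {t D : GQ → B}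
    (h : IsGoodPseudoRep (IsLocalRing.maximalIdeal B) b S p K t D) :
    ∃ ρ : GaloisRepAdic B, (∀ σ, LinearMap.charpoly (ρ.ρ σ) = X ^ 2 - C (t σ) * X + C (D σ)) ∧
      ∀ σ ∈ K, ρ.ρ σ = 1 := by
  have hinj : Function.Injective (algebraMap B (FractionRing B)) :=
    IsFractionRing.injective B (FractionRing B)
  have hps := h.isPseudoRep.comp (algebraMap B (FractionRing B))
  have htc : t complexConjugation = 0 := by
    have h1 := h.isPseudoRep.t_sq complexConjugation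
    rw [complexConjugation_mul_self, h.isPseudoRep.t_one, h.complexConj] at h1
    have h3 : t complexConjugation * t complexConjugation = 0 := by rw [← h1]; ring
    exact mul_self_eq_zero.mp h3
  have h2' : (2 : FractionRing B) ≠ 0 := by
    intro h3
    apply h2
    apply hinj
    rw [map_ofNat, map_zero, h3]
  obtain ⟨ρ, h1, h3, h4⟩ := hps.exists_matrix (g₀ := complexConjugation) (α := 1) (β := -1)
    (fun h5 => h2' (by linear_combination h5)) (by rw [htc, map_zero]; ring)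
    (by rw [h.complexConj, map_neg, map_one]; ring)
  obtain ⟨ρ', h5, h6⟩ := exists_galoisRepAdic_of_matrix ρ
    (fun i j => isBddCont_of_mem_span (IsLocalRing.maximalIdeal B) h.cont (h4 i j)) h1 h3
  refine ⟨ρ', h5, fun σ hσ => h6 σ ?_⟩
  -- invariance
  have hinv : ∀ (f : GQ → FractionRing B), f ∈ Submodule.span (FractionRing B)
      (Set.range fun (x g : GQ) => algebraMap B (FractionRing B) (t (x * g))) →
      f σ = f 1 := by
    intro f hf
    induction hf using Submodule.span_induction with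
    | mem f hf =>
      obtain ⟨x, rfl⟩ := hf
      change algebraMap B (FractionRing B) (t (x * σ)) = algebraMap B (FractionRing B) (t (x * 1))
      rw [(h.inertia σ hσ).1, mul_one]
    | zero => rfl
    | add f f' _ _ h h' => rw [Pi.add_apply, Pi.add_apply, h, h']
    | smul c f _ h => rw [Pi.smul_apply, Pi.smul_apply, h]
  ext i j
  rw [hinv _ (h4 i j), map_one]

end Fermat.Agent.GalRep
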