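import Mathlib

set_option autoImplicit false

/-!
# Algebras satisfying the polarized Cayley-Hamilton identity of degree two, and matrices
-/

namespace Fermat.Agent.GalRep

/-- `T` is a trace of degree two on `B` satisfying the polarized Cayley-Hamilton identity. -/
structure IsCHTrace {k B : Type*} [CommRing k] [Ring B] [Algebra k B] (T : B →ₗ[k] k) : Prop where
  map_one : T 1 = 2
  map_mul_comm : ∀ x y, T (x * y) = T (y * x)
  polar : ∀ x y, x * y + y * x = T x • y + T y • x + (T (x * y) - T x * T y) • (1 : B)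

namespace IsCHTrace

variable {k B : Type*} [Field k] [Ring B] [Algebra k B] {T : B →ₗ[k] k}

section idem

variable {e : B}

theorem ee (h : IsCHTrace T) (he : e * e = e) (hTe : T e = 1) (x : B) :
    e * x * e = T (e * x) • e := by
  have h1 := h.polar (e * x * e) e
  have h2 : e * x * e * e = e * x * e := by rw [mul_assoc (e * x), he]
  have h3 : e * (e * x * e) = e * x * e := by rw [← mul_assoc, ← mul_assoc, he]
  rw [h2, h3, hTe, mul_one, sub_self, zero_smul, add_zero, one_smul] at h1
  have h4 : T (e * x * e) = T (e * x) := by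
    rw [h.map_mul_comm, ← mul_assoc, he]
  rw [h4] at h1
  exact add_right_cancel h1

theorem idem_compl (he : e * e = e) : (1 - e) * (1 - e) = 1 - e := by
  rw [sub_mul, mul_sub, mul_sub, he]; simp

theorem T_compl (h : IsCHTrace T) (hTe : T e = 1) : T (1 - e) = 1 := by
  rw [map_sub, h.map_one, hTe]; norm_num

theorem ff (h : IsCHTrace T) (he : e * e = e) (hTe : T e = 1) (x : B) :
    (1 - e) * x * (1 - e) = T ((1 - e) * x) • (1 - e) :=
  h.ee (idem_compl he) (h.T_compl hTe) x

/-- `X(σ,τ)` -/
theorem X_mul_X (h : IsCHTrace T) (he : e * e = e) (hTe : T e = 1) (s t r n : B) :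
    T (e * s * (1 - e) * t) * T (e * r * (1 - e) * n) =
      T (e * s * (1 - e) * n) * T (e * r * (1 - e) * t) := by
  -- both sides equal `T (e s f n e r f t)`
  have h1 : T (e * s * (1 - e) * n * (e * r * (1 - e) * t)) =
      T (e * s * (1 - e) * n) * T (e * r * (1 - e) * t) := by
    have h2 : e * s * (1 - e) * n * (e * r * (1 - e) * t) =
        (e * (s * (1 - e) * n) * e) * (r * (1 - e) * t) := by noncomm_ring
    rw [h2, h.ee he hTe, smul_mul_assoc, map_smul, smul_eq_mul]
    congr 2 <;> noncomm_ring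
  have h3 : T (e * s * (1 - e) * n * (e * r * (1 - e) * t)) =
      T (e * s * (1 - e) * t) * T (e * r * (1 - e) * n) := by
    have h4 : e * s * (1 - e) * n * (e * r * (1 - e) * t) =
        e * s * ((1 - e) * (n * e * r) * (1 - e)) * t := by noncomm_ring
    have h5 : T ((1 - e) * (n * e * r)) = T (e * r * (1 - e) * n) := by
      have h6 : (1 - e) * (n * e * r) = ((1 - e) * n) * (e * r) := by noncomm_ring
      rw [h6, h.map_mul_comm]
      congr 1
      noncomm_ring
    rw [h4, h.ff he hTe, mul_smul_comm, smul_mul_assoc, map_smul, smul_eq_mul, h5, mul_comm]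
  rw [← h3, h1]

theorem a_mul (h : IsCHTrace T) (he : e * e = e) (hTe : T e = 1) (s t : B) :
    T (e * (s * t)) = T (e * s) * T (e * t) + T (e * s * (1 - e) * t) := by
  have h1 : e * (s * t) = (e * s * e) * t + e * s * (1 - e) * t := by noncomm_ring
  rw [h1, map_add, h.ee he hTe, smul_mul_assoc, map_smul, smul_eq_mul]

theorem d_mul (h : IsCHTrace T) (he : e * e = e) (hTe : T e = 1) (s t : B) :
    T ((1 - e) * (s * t)) = T ((1 - e) * s) * T ((1 - e) * t) + T (e * t * (1 - e) * s) := by
  have h1 : (1 - e) * (s * t) = ((1 - e) * s * (1 - e)) * t + (1 - e) * s * (e * t) := by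
    noncomm_ring
  rw [h1, map_add, h.ff he hTe, smul_mul_assoc, map_smul, smul_eq_mul,
    h.map_mul_comm ((1 - e) * s) (e * t), mul_assoc (e * t)]

theorem X_mul_left (h : IsCHTrace T) (he : e * e = e) (hTe : T e = 1) (s t r : B) :
    T (e * (s * t) * (1 - e) * r) =
      T (e * s) * T (e * t * (1 - e) * r) + T (e * s * (1 - e) * r) * T ((1 - e) * t) := by
  have h1 : e * (s * t) * (1 - e) * r = (e * s * e) * (t * (1 - e) * r) +
      e * s * ((1 - e) * t * (1 - e)) * r := by noncomm_ring
  rw [h1, map_add, h.ee he hTe, h.ff he hTe, smul_mul_assoc, map_smul, mul_smul_comm,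
    smul_mul_assoc, map_smul, smul_eq_mul, smul_eq_mul, mul_comm (T ((1 - e) * t))]
  congr 3
  noncomm_ring

theorem X_mul_right (h : IsCHTrace T) (he : e * e = e) (hTe : T e = 1) (s t r : B) :
    T (e * s * (1 - e) * (t * r)) =
      T (e * s * (1 - e) * t) * T (e * r) + T ((1 - e) * t) * T (e * s * (1 - e) * r) := by
  have h1 : e * s * (1 - e) * (t * r) = (e * s * (1 - e) * t * e) * r +
      e * s * ((1 - e) * t * (1 - e)) * r := by noncomm_ring
  have h2 : e * s * (1 - e) * t * e = e * (s * (1 - e) * t) * e := by noncomm_ring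
  have h3 : e * (s * (1 - e) * t) = e * s * (1 - e) * t := by noncomm_ring
  rw [h1, map_add, h2, h.ee he hTe, h3, h.ff he hTe, smul_mul_assoc, map_smul, mul_smul_comm,
    smul_mul_assoc, map_smul, smul_eq_mul, smul_eq_mul]

end idem

/-- quadratic relation -/
theorem quad (h : IsCHTrace T) {c : B} {δ : k} (hc : c * c = T c • c - δ • (1 : B)) {α β : k}
    (hαβ : α ≠ β) (hs : α + β = T c) (hp : α * β = δ) :
    ((α - β)⁻¹ • (c - β • (1 : B))) * ((α - β)⁻¹ • (c - β • (1 : B))) =
      (α - β)⁻¹ • (c - β • (1 : B)) ∧ T ((α - β)⁻¹ • (c - β • (1 : B))) = 1 := by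
  have hne : α - β ≠ 0 := sub_ne_zero.mpr hαβ
  constructor
  · rw [smul_mul_smul_comm]
    have h1 : (c - β • (1 : B)) * (c - β • (1 : B)) = (α - β) • (c - β • (1 : B)) := by
      rw [sub_mul, mul_sub, mul_sub, hc, ← hs, ← hp]
      simp only [smul_mul_assoc, mul_smul_comm, one_mul, mul_one]
      module
    rw [h1, smul_smul]
    congr 1
    field_simp
  · rw [map_smul, map_sub, map_smul, h.map_one, ← hs, smul_eq_mul, smul_eq_mul]
    field_simp
    ring

/-- **From a CH trace to a matrix representation.** -/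
theorem exists_matrix (h : IsCHTrace T) {G : Type*} [Group G] (u : G →* B) (D : G → k)
    (hD : ∀ g, u g * u g = T (u g) • u g - D g • (1 : B)) {e : B} (he : e * e = e)
    (hTe : T e = 1) :
    ∃ ρ : G →* Matrix (Fin 2) (Fin 2) k, (∀ g, (ρ g).trace = T (u g)) ∧
      (∀ g, (ρ g).det = D g) ∧
      ∀ i j, ∃ b b' : B, ∀ g, ρ g i j = T (b * u g * b') := by
  have hdet : ∀ g, T (e * u g) * T ((1 - e) * u g) - T (e * u g * (1 - e) * u g) = D g := by
    intro g
    have h1 := h.a_mul he hTe (u g) (u g)
    rw [hD g, mul_sub, mul_smul_comm, mul_smul_comm, mul_one, map_sub, map_smul, map_smul, hTe,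
      smul_eq_mul, smul_eq_mul, mul_one] at h1
    have h2 : T (u g) = T (e * u g) + T ((1 - e) * u g) := by
      rw [← map_add, ← add_mul]; simp
    rw [h2] at h1
    linear_combination h1
  have htr : ∀ g, T (e * u g) + T ((1 - e) * u g) = T (u g) := by
    intro g
    rw [← map_add, ← add_mul]; simp
  by_cases hX : ∀ s t : G, T (e * u s * (1 - e) * u t) = 0
  · -- diagonal case
    refine ⟨{ toFun := fun g => !![T (e * u g), 0; 0, T ((1 - e) * u g)]
              map_one' := ?_
              map_mul' := ?_ }, ?_, ?_, ?_⟩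
    · rw [u.map_one, mul_one, mul_one, hTe, h.T_compl hTe]
      ext i j
      fin_cases i <;> fin_cases j <;> rfl
    · intro g g'
      have h1 := h.a_mul he hTe (u g) (u g')
      have h2 := h.d_mul he hTe (u g) (u g')
      rw [hX, add_zero] at h1 h2
      rw [u.map_mul, h1, h2]
      ext i j
      fin_cases i <;> fin_cases j <;> simp [Matrix.mul_apply, Fin.sum_univ_two]
    · intro g
      simp only [MonoidHom.coe_mk, OneHom.coe_mk, Matrix.trace_fin_two_of]
      exact htr g
    · intro g
      simp only [MonoidHom.coe_mk, OneHom.coe_mk, Matrix.det_fin_two_of]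
      rw [← hdet g, hX]
      ring
    · intro i j
      fin_cases i <;> fin_cases j
      · exact ⟨e, 1, fun g => by simp⟩
      · exact ⟨0, 0, fun g => by simp⟩
      · exact ⟨0, 0, fun g => by simp⟩
      · exact ⟨1 - e, 1, fun g => by simp⟩
  · push Not at hX
    obtain ⟨s₀, t₀, h0⟩ := hX
    set x₀ := T (e * u s₀ * (1 - e) * u t₀) with hx₀
    refine ⟨{ toFun := fun g => !![T (e * u g), x₀⁻¹ * T (e * u g * (1 - e) * u t₀);
                T (e * u s₀ * (1 - e) * u g), T ((1 - e) * u g)]
              map_one' := ?_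
              map_mul' := ?_ }, ?_, ?_, ?_⟩
    · have h1 : e * (1 - e) = 0 := by rw [mul_sub, he, mul_one, sub_self]
      have h2 : T (e * u s₀ * (1 - e)) = 0 := by
        rw [h.map_mul_comm, ← mul_assoc, sub_mul, one_mul, he, sub_self, zero_mul, map_zero]
      rw [u.map_one, mul_one, mul_one, mul_one, hTe, h.T_compl hTe, h1, zero_mul, map_zero,
        mul_zero, h2]
      ext i j
      fin_cases i <;> fin_cases j <;> rfl
    · intro g g'
      have h11 := h.a_mul he hTe (u g) (u g')
      have h22 := h.d_mul he hTe (u g) (u g')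
      have h12 := h.X_mul_left he hTe (u g) (u g') (u t₀)
      have h21 := h.X_mul_right he hTe (u s₀) (u g) (u g')
      have e1 := h.X_mul_X he hTe (u g) (u t₀) (u s₀) (u g')
      have e2 := h.X_mul_X he hTe (u g') (u t₀) (u s₀) (u g)
      rw [← hx₀] at e1 e2
      rw [u.map_mul, h11, h22, h12, h21]
      ext i j
      fin_cases i <;> fin_cases j <;> simp [Matrix.mul_apply, Fin.sum_univ_two] <;> field_simp <;>
        first | linear_combination -e1 | linear_combination -e2 | ring
    · intro g
      simp only [MonoidHom.coe_mk, OneHom.coe_mk, Matrix.trace_fin_two_of]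
      exact htr g
    · intro g
      simp only [MonoidHom.coe_mk, OneHom.coe_mk, Matrix.det_fin_two_of]
      have e1 := h.X_mul_X he hTe (u g) (u t₀) (u s₀) (u g)
      rw [← hx₀] at e1
      rw [← hdet g]
      field_simp
      linear_combination -e1
    · intro i j
      fin_cases i <;> fin_cases j
      · exact ⟨e, 1, fun g => by simp⟩
      · refine ⟨x₀⁻¹ • e, (1 - e) * u t₀, fun g => ?_⟩
        simp only [smul_mul_assoc, map_smul, smul_eq_mul]
        simp [mul_assoc]
      · exact ⟨e * u s₀ * (1 - e), 1, fun g => by simp⟩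
      · exact ⟨1 - e, 1, fun g => by simp⟩

end IsCHTrace

end Fermat.Agent.GalRep
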