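import Fermat.Agent.GalRep.Hecke
import Fermat.Agent.DefRing.Burnside

set_option autoImplicit false
set_option linter.style.haveILetI false
set_option linter.unusedSectionVars false

/-!
# Traces of residually absolutely irreducible representations
-/

namespace Fermat.Agent.GalRep

open IsLocalRing Matrix
open Fermat.Agent.DefRing (toMatRep toMatRep_apply toMatRep_cont residual_toMatrix
  span_eq_top_of_absIrr)
open scoped TensorProduct

section

variable {A : Type} [CommRing A] [IsLocalRing A]

/-- the matrices of a residually absolutely irreducible representation span the matrix algebra -/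
theorem span_toMatRep_eq_top (ρ : GaloisRepAdic A) (habs : ρ.residual.IsAbsolutelyIrreducible)
    (b : Module.Basis (Fin 2) A ρ.V) :
    Submodule.span A (Set.range fun σ => toMatRep ρ b σ) = ⊤ := by
  classical
  have h : Submodule.span (ResidueField A)
      (Set.range fun σ => (toMatRep ρ b σ).map (residue A)) = ⊤ := by
    have h0 := span_eq_top_of_absIrr ρ.residual habs
      (Algebra.TensorProduct.basis (ResidueField A) b)
    have e : (fun σ => (toMatRep ρ b σ).map (residue A)) = fun σ => LinearMap.toMatrix
      (Algebra.TensorProduct.basis (ResidueField A) b :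
        Module.Basis (Fin 2) (ResidueField A) ρ.residual.V)
      (Algebra.TensorProduct.basis (ResidueField A) b :
        Module.Basis (Fin 2) (ResidueField A) ρ.residual.V) (ρ.residual.ρ σ) :=
      funext fun σ => (residual_toMatrix ρ b σ).symm
    rw [e]
    exact h0
  set N := Submodule.span A (Set.range fun σ => toMatRep ρ b σ) with hN
  have hle : (⊤ : Submodule A (Matrix (Fin 2) (Fin 2) A)) ≤ N ⊔ maximalIdeal A • ⊤ := by
    intro X _
    -- lift an expression of the residue matrix
    have hspan : ∀ Y ∈ Submodule.span (ResidueField A)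
        (Set.range fun σ => (toMatRep ρ b σ).map (residue A)),
        ∃ Z ∈ N, Z.map (residue A) = Y := by
      intro Y hY
      induction hY using Submodule.span_induction with
      | mem Y hY =>
        obtain ⟨σ, rfl⟩ := hY
        exact ⟨toMatRep ρ b σ, Submodule.subset_span ⟨σ, rfl⟩, rfl⟩
      | zero => exact ⟨0, N.zero_mem, by ext; simp⟩
      | add Y Y' _ _ h h' =>
        obtain ⟨Z, hZ, rfl⟩ := h
        obtain ⟨Z', hZ', rfl⟩ := h'
        exact ⟨Z + Z', N.add_mem hZ hZ', by ext; simp⟩
      | smul c Y _ h =>
        obtain ⟨Z, hZ, rfl⟩ := h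
        obtain ⟨c, rfl⟩ := residue_surjective c
        exact ⟨c • Z, N.smul_mem c hZ, by ext; simp⟩
    obtain ⟨Z, hZ, hZX⟩ := hspan (X.map (residue A)) (by rw [h]; trivial)
    have h1 : X = Z + (X - Z) := by abel
    rw [h1]
    refine Submodule.add_mem_sup hZ ?_
    have h2 : ∀ i j, (X - Z) i j ∈ maximalIdeal A := by
      intro i j
      rw [← residue_eq_zero_iff, Matrix.sub_apply, map_sub, sub_eq_zero]
      exact (congrFun (congrFun hZX i) j).symm
    rw [Matrix.matrix_eq_sum_single (X - Z)]
    refine Submodule.sum_mem _ fun i _ => Submodule.sum_mem _ fun j _ => ?_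
    have h3 : Matrix.single i j ((X - Z) i j) = (X - Z) i j • Matrix.single i j (1 : A) := by
      rw [Matrix.smul_single]; simp
    rw [h3]
    exact Submodule.smul_mem_smul (h2 i j) Submodule.mem_top
  rw [eq_top_iff]
  exact Submodule.le_of_le_smul_of_le_jacobson_bot (Module.Finite.fg_top)
    (IsLocalRing.maximalIdeal_le_jacobson ⊥) hle

/-- **An element with the same traces as the identity acts trivially.** -/
theorem eq_one_of_trace_eq (ρ : GaloisRepAdic A) (habs : ρ.residual.IsAbsolutelyIrreducible)
    (b : Module.Basis (Fin 2) A ρ.V) (σ : GQ)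
    (h : ∀ g, (toMatRep ρ b (g * σ)).trace = (toMatRep ρ b g).trace) : ρ.ρ σ = 1 := by
  classical
  have h1 : ∀ Y : Matrix (Fin 2) (Fin 2) A, (Y * (toMatRep ρ b σ - 1)).trace = 0 := by
    intro Y
    have hY : Y ∈ Submodule.span A (Set.range fun σ => toMatRep ρ b σ) := by
      rw [span_toMatRep_eq_top ρ habs b]; trivial
    induction hY using Submodule.span_induction with
    | mem Y hY =>
      obtain ⟨g, rfl⟩ := hY
      change (toMatRep ρ b g * (toMatRep ρ b σ - 1)).trace = 0
      rw [Matrix.mul_sub, Matrix.mul_one, ← map_mul, Matrix.trace_sub, h, sub_self]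
    | zero => simp
    | add Y Y' _ _ h h' => rw [Matrix.add_mul, Matrix.trace_add, h, h', add_zero]
    | smul c Y _ h => rw [Matrix.smul_mul, Matrix.trace_smul, h, smul_zero]
  have h2 : toMatRep ρ b σ = 1 := by
    rw [← sub_eq_zero]
    ext i j
    have h3 := h1 (Matrix.single j i 1)
    rw [Matrix.trace_mul_comm, Matrix.trace_mul_single] at h3
    simpa using h3
  rw [toMatRep_apply] at h2
  apply (LinearMap.toMatrix b b).injective
  rw [h2]
  exact (LinearMap.toMatrix_one b).symm

end

end Fermat.Agent.GalRep
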