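import Fermat.Agent.GalRep.Limit
import Fermat.Prelude.Def_GaloisRep_Adic

set_option autoImplicit false
set_option linter.style.haveILetI false
set_option linter.unusedSectionVars false

/-!
# Lattices: from pseudo-representations over complete discrete valuation rings to adic
Galois representations
-/

namespace Fermat.Agent.GalRep

open Polynomial

section bounded

variable {B K : Type*} [CommRing B] [IsDomain B] [Field K] [Algebra B K] [IsFractionRing B K]
  (I : Ideal B)

/-- `f : GQ → K` is a constant multiple of a continuous `B`-valued function. -/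
def IsBddCont (f : GQ → K) : Prop :=
  ∃ δ : B, δ ≠ 0 ∧ ∃ F : GQ → B, (∀ g, algebraMap B K δ * f g = algebraMap B K (F g)) ∧
    ∀ n, IsLocConst (fun g => Ideal.Quotient.mk (I ^ n) (F g))

theorem IsBddCont.add {f f' : GQ → K} (hf : IsBddCont I f) (hf' : IsBddCont I f') :
    IsBddCont I (fun g => f g + f' g) := by
  obtain ⟨δ, hδ, F, h1, h2⟩ := hf
  obtain ⟨δ', hδ', F', h1', h2'⟩ := hf'
  refine ⟨δ * δ', mul_ne_zero hδ hδ', fun g => δ' * F g + δ * F' g, fun g => ?_, fun n => ?_⟩
  · rw [map_add, map_mul, map_mul, map_mul, ← h1, ← h1']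
    ring
  · exact ((h2 n).prodMk (h2' n)).comp (fun z => Ideal.Quotient.mk (I ^ n) δ' * z.1 +
      Ideal.Quotient.mk (I ^ n) δ * z.2)

theorem IsBddCont.smul {f : GQ → K} (hf : IsBddCont I f) (c : K) :
    IsBddCont I (fun g => c * f g) := by
  obtain ⟨δ, hδ, F, h1, h2⟩ := hf
  obtain ⟨u, v, hv, rfl⟩ := IsFractionRing.div_surjective (A := B) c
  have hv0 : v ≠ 0 := nonZeroDivisors.ne_zero hv
  have hv0' : algebraMap B K v ≠ 0 := by
    rwa [Ne, FaithfulSMul.algebraMap_eq_zero_iff]
  refine ⟨δ * v, mul_ne_zero hδ hv0, fun g => u * F g, fun g => ?_, fun n => ?_⟩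
  · rw [map_mul, map_mul, ← h1]
    field_simp
  · exact (h2 n).comp (fun z => Ideal.Quotient.mk (I ^ n) u * z)

theorem isBddCont_zero : IsBddCont I (fun _ : GQ => (0 : K)) :=
  ⟨1, one_ne_zero, fun _ => 0, fun g => by simp, fun n => ⟨⊥, inferInstance, fun _ _ _ => rfl⟩⟩

theorem IsLocConst.leftTranslate {α : Type*} {f : GQ → α} (hf : IsLocConst f) (x : GQ) :
    IsLocConst (fun g => f (x * g)) := by
  obtain ⟨L, hL, h⟩ := hf
  exact ⟨L, hL, fun σ hσ g => by
    change f (x * (g * σ)) = f (x * g)
    rw [← mul_assoc]; exact h σ hσ (x * g)⟩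

theorem isBddCont_of_mem_span {t : GQ → B} (ht : ∀ n, IsLocConst
    (fun g => Ideal.Quotient.mk (I ^ n) (t g))) {f : GQ → K}
    (hf : f ∈ Submodule.span K (Set.range fun (x : GQ) (g : GQ) => algebraMap B K (t (x * g)))) :
    IsBddCont I f := by
  induction hf using Submodule.span_induction with
  | mem f hf =>
    obtain ⟨x, rfl⟩ := hf
    exact ⟨1, one_ne_zero, fun g => t (x * g), fun g => by simp, fun n =>
      (ht n).leftTranslate x⟩
  | zero => exact isBddCont_zero I
  | add f f' _ _ h h' => exact h.add I h'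
  | smul c f _ h => exact h.smul I c

end bounded

section lattice

variable {B : Type} [CommRing B] [IsDomain B] [IsDiscreteValuationRing B]

local notation "𝔪" => IsLocalRing.maximalIdeal B

/-- **Existence of an adic Galois representation with given bounded continuous matrices.** -/
theorem exists_galoisRepAdic_of_matrix {K : Type} [Field K] [Algebra B K] [IsFractionRing B K]
    (ρ : GQ →* Matrix (Fin 2) (Fin 2) K) (hρ : ∀ i j, IsBddCont (𝔪) (fun g => ρ g i j))
    {t D : GQ → B} (ht : ∀ g, (ρ g).trace = algebraMap B K (t g))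
    (hD : ∀ g, (ρ g).det = algebraMap B K (D g)) :
    ∃ ρ' : GaloisRepAdic B, (∀ σ, LinearMap.charpoly (ρ'.ρ σ) = X ^ 2 - C (t σ) * X + C (D σ)) ∧
      ∀ σ, ρ σ = 1 → ρ'.ρ σ = 1 := by
  classical
  have hinj : Function.Injective (algebraMap B K) := IsFractionRing.injective B K
  -- common denominator
  choose δ hδ F hF hFc using hρ
  let d : B := ∏ i, ∏ j, δ i j
  have hd : d ≠ 0 := Finset.prod_ne_zero_iff.mpr fun i _ => Finset.prod_ne_zero_iff.mpr
    fun j _ => hδ i j
  have hdK : algebraMap B K d ≠ 0 := by rwa [Ne, FaithfulSMul.algebraMap_eq_zero_iff]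
  have hdvd : ∀ i j, δ i j ∣ d := fun i j =>
    (Finset.dvd_prod_of_mem (fun j => δ i j) (Finset.mem_univ j)).trans
      (Finset.dvd_prod_of_mem (fun i => ∏ j, δ i j) (Finset.mem_univ i))
  choose δ' hδ' using hdvd
  obtain ⟨F', hF', hF'c⟩ : ∃ F' : Fin 2 → Fin 2 → GQ → B,
      (∀ i j g, algebraMap B K d * ρ g i j = algebraMap B K (F' i j g)) ∧
      (∀ i j n, IsLocConst (fun g => Ideal.Quotient.mk ((𝔪) ^ n) (F' i j g))) := by
    refine ⟨fun i j g => δ' i j * F i j g, ?_, ?_⟩
    · intro i j g
      rw [map_mul, ← hF i j g, hδ' i j, map_mul]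
      ring
    · intro i j n
      exact (hFc i j n).comp (fun z => Ideal.Quotient.mk _ (δ' i j) * z)
  -- the lattice
  let e : Fin 2 → (Fin 2 → K) := fun j => Pi.single j 1
  let Λ : Submodule B (Fin 2 → K) := Submodule.span B (Set.range fun q : GQ × Fin 2 =>
    (ρ q.1).mulVec (e q.2))
  have heΛ : ∀ j, e j ∈ Λ := fun j => Submodule.subset_span ⟨(1, j), by simp⟩
  have hstab : ∀ g, ∀ v ∈ Λ, (ρ g).mulVec v ∈ Λ := by
    intro g v hv
    induction hv using Submodule.span_induction with
    | mem v hv =>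
      obtain ⟨⟨g', j⟩, rfl⟩ := hv
      refine Submodule.subset_span ⟨(g * g', j), ?_⟩
      change (ρ (g * g')).mulVec (e j) = (ρ g).mulVec ((ρ g').mulVec (e j))
      rw [map_mul, Matrix.mulVec_mulVec]
    | zero => rw [Matrix.mulVec_zero]; exact Λ.zero_mem
    | add v w _ _ hv hw => rw [Matrix.mulVec_add]; exact Λ.add_mem hv hw
    | smul b v _ hv =>
      rw [Matrix.mulVec_smul]
      exact Λ.smul_mem b hv
  -- `d Λ ⊆ B²`
  have hbound : ∀ v ∈ Λ, ∃ w : Fin 2 → B, ∀ i, algebraMap B K d * v i = algebraMap B K (w i) := by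
    intro v hv
    induction hv using Submodule.span_induction with
    | mem v hv =>
      obtain ⟨⟨g, j⟩, rfl⟩ := hv
      refine ⟨fun i => F' i j g, fun i => ?_⟩
      rw [← hF']
      simp [e]
    | zero => exact ⟨0, fun i => by simp⟩
    | add v w _ _ hv hw =>
      obtain ⟨v', hv'⟩ := hv
      obtain ⟨w', hw'⟩ := hw
      refine ⟨v' + w', fun i => ?_⟩
      rw [Pi.add_apply, Pi.add_apply, mul_add, hv', hw', map_add]
    | smul b v _ hv =>
      obtain ⟨v', hv'⟩ := hv
      refine ⟨b • v', fun i => ?_⟩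
      rw [Pi.smul_apply, Pi.smul_apply, smul_eq_mul, map_mul, ← hv', Algebra.smul_def]
      ring
  choose w hw using fun v : Λ => hbound v.1 v.2
  let emb : Λ →ₗ[B] (Fin 2 → B) :=
    { toFun := w
      map_add' := fun v v' => by
        ext i
        apply hinj
        rw [← hw, Pi.add_apply, map_add, ← hw, ← hw, Submodule.coe_add, Pi.add_apply, mul_add]
      map_smul' := fun b v => by
        ext i
        apply hinj
        rw [← hw, Pi.smul_apply, RingHom.id_apply, smul_eq_mul, map_mul, ← hw, Submodule.coe_smul,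
          Pi.smul_apply, Algebra.smul_def]
        ring }
  have hemb : Function.Injective emb := by
    intro v v' h
    apply Subtype.ext
    funext i
    have h1 : w v i = w v' i := congrFun h i
    have h2 := hw v i
    rw [h1, ← hw v' i] at h2
    exact mul_left_cancel₀ hdK h2
  haveI : IsNoetherian B (Fin 2 → B) := inferInstance
  haveI hfin : Module.Finite B Λ := Module.Finite.of_injective emb hemb
  haveI : Module.IsTorsionFree B Λ := by
    haveI : Module.IsTorsionFree B (Fin 2 → B) := inferInstance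
    exact hemb.moduleIsTorsionFree emb (fun b v => map_smul emb b v)
  haveI hfree : Module.Free B Λ := inferInstance
  have hsum : ∀ (f : Fin 2 → B) (i : Fin 2),
      ((∑ j, f j • (⟨e j, heΛ j⟩ : Λ) : Λ) : Fin 2 → K) i = algebraMap B K (f i) := by
    intro f i
    rw [Submodule.coe_sum, Finset.sum_apply]
    simp only [Submodule.coe_smul, Pi.smul_apply, e, Pi.single_apply, Algebra.smul_def]
    simp
  have hrank : Module.finrank B Λ = 2 := by
    apply le_antisymm
    · have := LinearMap.finrank_le_finrank_of_injective hemb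
      simpa using this
    · let f : (Fin 2 → B) →ₗ[B] Λ := Fintype.linearCombination B (fun j => (⟨e j, heΛ j⟩ : Λ))
      have hf : Function.Injective f := by
        intro x y hxy
        funext i
        have h1 := congrArg (fun v : Λ => (v : Fin 2 → K) i) hxy
        simp only [f, Fintype.linearCombination_apply] at h1
        rw [hsum, hsum] at h1
        exact hinj h1
      have := LinearMap.finrank_le_finrank_of_injective hf
      simpa using this
  -- the action
  let act : GQ → Module.End B Λ := fun g =>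
    { toFun := fun v => ⟨(ρ g).mulVec v.1, hstab g v.1 v.2⟩
      map_add' := fun v v' => Subtype.ext (by
        change (ρ g).mulVec (v.1 + v'.1) = (ρ g).mulVec v.1 + (ρ g).mulVec v'.1
        rw [Matrix.mulVec_add])
      map_smul' := fun b v => Subtype.ext (by
        change (ρ g).mulVec (b • v.1) = b • (ρ g).mulVec v.1
        rw [Matrix.mulVec_smul]) }
  let ρ₀ : GQ →* Module.End B Λ :=
    { toFun := act
      map_one' := by
        ext v : 1
        apply Subtype.ext
        change (ρ 1).mulVec v.1 = v.1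
        rw [map_one, Matrix.one_mulVec]
      map_mul' := fun g g' => by
        ext v : 1
        apply Subtype.ext
        change (ρ (g * g')).mulVec v.1 = (ρ g).mulVec ((ρ g').mulVec v.1)
        rw [map_mul, Matrix.mulVec_mulVec] }
  have hρ₀ : ∀ g (v : Λ), (ρ₀ g v : Fin 2 → K) = (ρ g).mulVec v.1 := fun _ _ => rfl
  -- continuity
  have hcont : GaloisActionIsAdicContinuous B ρ₀ := by
    intro n
    obtain ⟨s, hs⟩ : ∃ s : ℕ, Ideal.span {d ^ 2} = (𝔪) ^ s := by
      have hd2 : Ideal.span {d ^ 2} ≠ ⊥ := by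
        rw [Ne, Ideal.span_singleton_eq_bot]
        exact pow_ne_zero 2 hd
      obtain ⟨ϖ, hϖ⟩ := IsDiscreteValuationRing.exists_irreducible B
      obtain ⟨s, hs⟩ := IsDiscreteValuationRing.ideal_eq_span_pow_irreducible hd2 hϖ
      exact ⟨s, by rw [hs, hϖ.maximalIdeal_eq, Ideal.span_singleton_pow]⟩
    have hloc : ∃ L : IntermediateField ℚ (AlgebraicClosure ℚ), FiniteDimensional ℚ L ∧
        ∀ σ : GQ, (∀ x ∈ L, σ x = x) → ∀ i j, F' i j σ - F' i j 1 ∈ (𝔪) ^ (s + n) := by
      obtain ⟨L, hL, h⟩ := ((hF'c 0 0 (s + n)).prodMk (hF'c 0 1 (s + n))).prodMk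
        ((hF'c 1 0 (s + n)).prodMk (hF'c 1 1 (s + n)))
      refine ⟨L, hL, fun σ hσ i j => ?_⟩
      have h1 := h σ hσ 1
      rw [one_mul] at h1
      simp only [Prod.mk.injEq] at h1
      rw [← Ideal.Quotient.eq]
      fin_cases i <;> fin_cases j
      · exact h1.1.1
      · exact h1.1.2
      · exact h1.2.1
      · exact h1.2.2
    obtain ⟨L, hL, h⟩ := hloc
    refine ⟨L, hL, fun σ hσ v => ?_⟩
    have h1 : ∀ i j, ∃ z ∈ (𝔪) ^ n, F' i j σ - F' i j 1 = d ^ 2 * z := by
      intro i j
      have h2 := h σ hσ i j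
      rw [pow_add, ← hs, Ideal.mem_span_singleton_mul] at h2
      obtain ⟨z, hz, hz'⟩ := h2
      exact ⟨z, hz, hz'.symm⟩
    choose z hz hz' using h1
    have h3 : ρ₀ σ v - v = ∑ i, (∑ j, z i j * w v j) • (⟨e i, heΛ i⟩ : Λ) := by
      apply Subtype.ext
      funext i
      have h4 : ((∑ i, (∑ j, z i j * w v j) • (⟨e i, heΛ i⟩ : Λ) : Λ) : Fin 2 → K) i =
          algebraMap B K (∑ j, z i j * w v j) := hsum _ i
      rw [h4, Submodule.coe_sub, hρ₀, Pi.sub_apply]
      have h5 : v.1 i = (ρ 1).mulVec v.1 i := by rw [map_one, Matrix.one_mulVec]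
      conv_lhs => rw [h5]
      apply mul_left_cancel₀ (pow_ne_zero 2 hdK)
      simp only [Matrix.mulVec, dotProduct]
      rw [← Finset.sum_sub_distrib, Finset.mul_sum, map_sum, Finset.mul_sum]
      refine Finset.sum_congr rfl fun j _ => ?_
      have h6 := hz' i j
      have h7 := congrArg (algebraMap B K) h6
      rw [map_sub, map_mul, map_pow, ← hF', ← hF'] at h7
      rw [map_mul, ← hw v j]
      linear_combination (algebraMap B K d * v.1 j) * h7
    rw [h3]
    refine Submodule.sum_mem _ fun i _ => Submodule.smul_mem_smul ?_ Submodule.mem_top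
    exact Ideal.sum_mem _ fun j _ => Ideal.mul_mem_right _ _ (hz i j)
  let R' : GaloisRepAdic B :=
    { V := Λ
      finrank_eq := hrank
      ρ := ρ₀
      isAdicContinuous := hcont }
  refine ⟨R', fun σ => ?_, fun σ hσ => ?_⟩
  · -- the characteristic polynomial
    change LinearMap.charpoly (ρ₀ σ) = _
    let b : Module.Basis (Fin 2) B Λ := Module.finBasisOfFinrankEq B Λ hrank
    let A : Matrix (Fin 2) (Fin 2) B := LinearMap.toMatrix b b (ρ₀ σ)
    rw [← LinearMap.charpoly_toMatrix (ρ₀ σ) b]
    change A.charpoly = _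
    let P : Matrix (Fin 2) (Fin 2) K := Matrix.of fun i j => (b j : Fin 2 → K) i
    let Q : Matrix (Fin 2) (Fin 2) K := Matrix.of fun i j =>
      algebraMap B K (b.repr ⟨e j, heΛ j⟩ i)
    have hPQ : P * Q = 1 := by
      ext i j
      have h1 := congrArg (fun v : Λ => (v : Fin 2 → K) i) (b.sum_repr ⟨e j, heΛ j⟩)
      simp only [Submodule.coe_sum, Finset.sum_apply, Submodule.coe_smul, Pi.smul_apply,
        Algebra.smul_def] at h1
      rw [Matrix.mul_apply, Matrix.one_apply]
      simp only [P, Q, Matrix.of_apply]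
      rw [← (show (e j : Fin 2 → K) i = if i = j then 1 else 0 by simp [e, Pi.single_apply]), ← h1]
      exact Finset.sum_congr rfl fun k _ => mul_comm _ _
    have hQP : Q * P = 1 := mul_eq_one_comm.mp hPQ
    have hMP : ρ σ * P = P * A.map (algebraMap B K) := by
      ext i j
      have h1 : ρ₀ σ (b j) = ∑ k, A k j • b k := by
        rw [← b.sum_repr (ρ₀ σ (b j))]
        refine Finset.sum_congr rfl fun k _ => ?_
        change _ = LinearMap.toMatrix b b (ρ₀ σ) k j • b k
        rw [LinearMap.toMatrix_apply]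
      have h2 := congrArg (fun v : Λ => (v : Fin 2 → K) i) h1
      simp only [Submodule.coe_sum, Finset.sum_apply, Submodule.coe_smul, Pi.smul_apply,
        Algebra.smul_def, hρ₀] at h2
      rw [Matrix.mul_apply, Matrix.mul_apply]
      simp only [P, Matrix.of_apply, Matrix.map_apply]
      have h3 : ((ρ σ).mulVec (b j : Fin 2 → K)) i = ∑ k, ρ σ i k * (b j : Fin 2 → K) k := rfl
      rw [← h3, h2]
      exact Finset.sum_congr rfl fun k _ => mul_comm _ _
    have hAK : A.map (algebraMap B K) = Q * (ρ σ * P) := by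
      rw [hMP, ← Matrix.mul_assoc, hQP, Matrix.one_mul]
    have htr : A.trace = t σ := by
      apply hinj
      rw [← ht σ]
      have h1 : algebraMap B K A.trace = (A.map (algebraMap B K)).trace := by
        simp [Matrix.trace]
      rw [h1, hAK, Matrix.trace_mul_comm, Matrix.mul_assoc, hPQ, Matrix.mul_one]
    have hdet : A.det = D σ := by
      apply hinj
      rw [← hD σ, RingHom.map_det]
      have h1 : (algebraMap B K).mapMatrix A = A.map (algebraMap B K) := rfl
      rw [h1, hAK, Matrix.det_mul, Matrix.det_mul]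
      have h2 : Q.det * P.det = 1 := by rw [← Matrix.det_mul, hQP, Matrix.det_one]
      linear_combination (ρ σ).det * h2
    rw [Matrix.charpoly_fin_two, htr, hdet]
  · change ρ₀ σ = 1
    ext v : 1
    apply Subtype.ext
    change (ρ σ).mulVec v.1 = v.1
    rw [hσ, Matrix.one_mulVec]

end lattice

end Fermat.Agent.GalRep
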