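import Fermat.Agent.GalRep.Trace

set_option autoImplicit false
set_option linter.style.haveILetI false
set_option linter.unusedSectionVars false

/-!
# Pseudo-representations with values in adically complete rings
-/

namespace Fermat.Agent.GalRep

section adic

variable {B : Type*} [CommRing B] (I : Ideal B)

theorem smodEq_iff_mk_eq (n : ℕ) (x y : B) :
    x ≡ y [SMOD (I ^ n • ⊤ : Submodule B B)] ↔
      Ideal.Quotient.mk (I ^ n) x = Ideal.Quotient.mk (I ^ n) y := by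
  rw [SModEq.sub_mem, Ideal.Quotient.eq, smul_eq_mul, Ideal.mul_top]

theorem eq_of_forall_mk_eq [IsHausdorff I B] {x y : B}
    (h : ∀ n, Ideal.Quotient.mk (I ^ n) x = Ideal.Quotient.mk (I ^ n) y) : x = y := by
  rw [← sub_eq_zero]
  refine IsHausdorff.haus (I := I) inferInstance (x - y) fun n => ?_
  rw [smodEq_iff_mk_eq, map_sub, h n, sub_self, map_zero]

theorem exists_of_compat [IsPrecomplete I B] (x : ∀ n, B ⧸ I ^ n)
    (hx : ∀ {m n : ℕ} (h : m ≤ n), Ideal.Quotient.factor (Ideal.pow_le_pow_right h) (x n) = x m) :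
    ∃ y : B, ∀ n, Ideal.Quotient.mk (I ^ n) y = x n := by
  choose f hf using fun n => Ideal.Quotient.mk_surjective (x n)
  obtain ⟨L, hL⟩ := IsPrecomplete.prec (I := I) inferInstance (f := f) (fun {m n} h => by
    rw [smodEq_iff_mk_eq, hf, ← hx h, ← hf n, Ideal.Quotient.factor_mk])
  exact ⟨L, fun n => by rw [← hf n]; exact ((smodEq_iff_mk_eq I n _ _).mp (hL n)).symm⟩

end adic

/-- A pseudo-representation of `GQ` with values in `B`, continuous for the `I`-adic topology,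
with prescribed Frobenius traces, cyclotomic determinant and invariant under `K`. -/
structure IsGoodPseudoRep {B : Type*} [CommRing B] (I : Ideal B) (b : ℕ → B) (S : Set ℕ) (p : ℕ)
    [Fact p.Prime] (K : Set GQ) (t D : GQ → B) : Prop where
  isPseudoRep : IsPseudoRep t D
  cont : ∀ n, IsLocConst (fun g => Ideal.Quotient.mk (I ^ n) (t g))
  D_eq : ∀ n g, Ideal.Quotient.mk (I ^ n) (D g) = (((cyc (p ^ n) g).val : ℕ) : B ⧸ I ^ n)
  frobenius : ∀ ℓ : ℕ, ℓ.Prime → ℓ ∉ S → ∀ A : ValuationSubring (AlgebraicClosure ℚ),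
    A.LiesOverPrime ℓ → ∀ τ : GQ, A.IsFrobeniusAt τ ℓ → t τ = b ℓ ∧ D τ = ℓ
  inertia : ∀ σ ∈ K, (∀ g, t (g * σ) = t g) ∧ D σ = 1
  complexConj : D complexConjugation = -1

variable {R : Type*} [CommRing R] {a : ℕ → R} {S : Set ℕ} {p : ℕ} [hp : Fact p.Prime]

theorem natCast_val_eq_zero_of_dvd {B : Type*} [CommRing B] {I : Ideal B} (hpI : (p : B) ∈ I)
    {n : ℕ} : ((p ^ n : ℕ) : B ⧸ I ^ n) = 0 := by
  rw [← map_natCast (Ideal.Quotient.mk (I ^ n)), Ideal.Quotient.eq_zero_iff_mem]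
  push_cast
  exact Ideal.pow_mem_pow hpI n

theorem natCast_eq_of_modEq {B : Type*} [CommRing B] {x y N : ℕ} (hN : ((N : ℕ) : B) = 0)
    (h : x ≡ y [MOD N]) : (x : B) = y := by
  rw [← sub_eq_zero]
  obtain ⟨c, hc⟩ := (Nat.modEq_iff_dvd.mp h.symm)
  have : ((x : ℤ) - (y : ℤ) : ℤ) = N * c := hc
  have h2 : ((x : B) - (y : B)) = (N : B) * (c : B) := by
    exact_mod_cast congrArg (Int.cast : ℤ → B) this
  rw [h2, hN, zero_mul]

/-- **The pseudo-representation over a complete ring**, with local information. -/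
theorem exists_goodPseudoRep' {B : Type*} [CommRing B] {I : Ideal B} [IsAdicComplete I B]
    (hpI : (p : B) ∈ I) (χ : R →+* B) (hS : S.Finite) (hpS : p ∈ S) (K : Set GQ)
    (hK : ∀ σ ∈ K, ∀ k, cyc (p ^ k) σ = 1)
    (Q : ∀ (X : Type) (_ : AddCommGroup X) (_ : Module R X), (GQ →* Module.End R X) → Prop)
    (hX : ∀ n : ℕ, ∃ (X : Type) (i₁ : AddCommGroup X) (i₂ : Module R X)
      (ρ : GQ →* Module.End R X), (IsHG a S p n ρ ∧ ∀ σ ∈ K, ρ σ = 1) ∧ Q X i₁ i₂ ρ) :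
    ∃ t D : GQ → B, IsGoodPseudoRep I (fun ℓ => χ (a ℓ)) S p K t D ∧
      ∀ n g, ∃ (X : Type) (i₁ : AddCommGroup X) (i₂ : Module R X)
        (ρ : GQ →* Module.End R X), IsHG a S p n ρ ∧ Q X i₁ i₂ ρ ∧ ∃ (m : ℕ) (r : R),
          (∀ x : X, p ^ m • x = 0) ∧
          Ideal.Quotient.mk (I ^ n) (t g) = Ideal.Quotient.mk (I ^ n) (χ r) ∧
          ∀ x : X, ρ g x + (cyc (p ^ m) g).val • ρ g⁻¹ x = r • x := by
  -- the finite levels
  have hlev : ∀ n : ℕ, ∃ t : GQ → B ⧸ I ^ n,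
      IsPseudoRep t (fun g => (((cyc (p ^ n) g).val : ℕ) : B ⧸ I ^ n)) ∧
      IsLocConst t ∧
      (∀ ℓ : ℕ, ℓ.Prime → ℓ ∉ S → ∀ A : ValuationSubring (AlgebraicClosure ℚ),
        A.LiesOverPrime ℓ → ∀ τ : GQ, A.IsFrobeniusAt τ ℓ →
          t τ = Ideal.Quotient.mk _ (χ (a ℓ))) ∧
      (∀ σ ∈ K, ∀ g, t (g * σ) = t g) ∧
      ∀ g, ∃ (X : Type) (i₁ : AddCommGroup X) (i₂ : Module R X)
        (ρ : GQ →* Module.End R X), IsHG a S p n ρ ∧ Q X i₁ i₂ ρ ∧ ∃ (m : ℕ) (r : R),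
          (∀ x : X, p ^ m • x = 0) ∧ t g = Ideal.Quotient.mk (I ^ n) (χ r) ∧
          ∀ x : X, ρ g x + (cyc (p ^ m) g).val • ρ g⁻¹ x = r • x := by
    intro n
    obtain ⟨X, i₁, i₂, ρ, ⟨hρ, hρK⟩, hQ⟩ := hX n
    obtain ⟨t, ⟨ht1, ht2, ht3, ht4⟩, ht5⟩ := hρ.exists_pseudoRep' hS hpS
    have hle : Ideal.span {(p : R) ^ n} ≤ Ideal.comap χ (I ^ n) := by
      rw [Ideal.span_singleton_le_iff_mem, Ideal.mem_comap, map_pow, map_natCast]
      exact Ideal.pow_mem_pow hpI n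
    let φ : R ⧸ Ideal.span {(p : R) ^ n} →+* B ⧸ I ^ n := Ideal.quotientMap (I ^ n) χ hle
    refine ⟨fun g => φ (t g), ?_, ht2.comp φ, ?_, ?_, ?_⟩
    · have := ht1.comp φ
      simp only [map_natCast] at this
      exact this
    · intro ℓ hℓ hℓS A hA τ hτ
      change φ (t τ) = _
      rw [ht3 ℓ hℓ hℓS A hA τ hτ]
      rfl
    · intro σ hσ g
      exact congrArg φ (ht4 σ (hρK σ hσ) (hK σ hσ) g)
    · intro g
      obtain ⟨m, r, hm, hr, hr'⟩ := ht5 g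
      refine ⟨X, i₁, i₂, ρ, hρ, hQ, m, r, hm, ?_, hr'⟩
      change φ (t g) = _
      rw [hr]
      rfl
  choose t ht1 ht2 ht3 ht4 ht5 using hlev
  have hD0 : ∀ {m n : ℕ} (_ : m ≤ n) (g : GQ), (((cyc (p ^ n) g).val : ℕ) : B ⧸ I ^ m) =
      (((cyc (p ^ m) g).val : ℕ) : B ⧸ I ^ m) := by
    intro m n h g
    refine natCast_eq_of_modEq (natCast_val_eq_zero_of_dvd hpI) ?_
    rw [← ZMod.natCast_eq_natCast_iff, ZMod.natCast_zmod_val,
      ← castHom_cyc (m := p ^ m) (n := p ^ n) (pow_dvd_pow p h) g]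
    simp [ZMod.natCast_val]
  have hDloc : ∀ n, IsLocConst fun g => (((cyc (p ^ n) g).val : ℕ) : B ⧸ I ^ n) := fun n =>
    (isLocConst_cyc (p ^ n)).comp (fun z => ((z.val : ℕ) : B ⧸ I ^ n))
  have hcop : ∀ {ℓ : ℕ}, ℓ.Prime → ℓ ∉ S → ∀ n, Nat.Coprime ℓ (p ^ n) := by
    intro ℓ hℓ hℓS n
    refine Nat.Coprime.pow_right _ ((Nat.coprime_primes hℓ hp.out).mpr ?_)
    rintro rfl
    exact hℓS hpS
  have hDfrob : ∀ n, ∀ ℓ : ℕ, ℓ.Prime → ℓ ∉ S → ∀ A : ValuationSubring (AlgebraicClosure ℚ),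
      A.LiesOverPrime ℓ → ∀ τ : GQ, A.IsFrobeniusAt τ ℓ →
        (((cyc (p ^ n) τ).val : ℕ) : B ⧸ I ^ n) = (ℓ : B ⧸ I ^ n) := by
    intro n ℓ hℓ hℓS A hA τ hτ
    refine natCast_eq_of_modEq (natCast_val_eq_zero_of_dvd hpI) ?_
    rw [← ZMod.natCast_eq_natCast_iff, ZMod.natCast_zmod_val,
      cyc_frobenius (hcop hℓ hℓS n) hA hτ]
  have hcompat : ∀ {m n : ℕ} (h : m ≤ n) (g : GQ),
      Ideal.Quotient.factor (Ideal.pow_le_pow_right h) (t n g) = t m g := by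
    intro m n h g
    have h1 := (ht1 n).comp (Ideal.Quotient.factor (Ideal.pow_le_pow_right h : I ^ n ≤ I ^ m))
    refine congrFun (IsPseudoRep.t_eq_of_frobenius h1 (ht1 m) ((ht2 n).comp _) (ht2 m) hS ?_) g
    intro ℓ hℓ hℓS A hA τ hτ
    constructor
    · rw [ht3 n ℓ hℓ hℓS A hA τ hτ, ht3 m ℓ hℓ hℓS A hA τ hτ, Ideal.Quotient.factor_mk]
    · rw [map_natCast, hD0 h]
  choose T hT using fun g => exists_of_compat I (fun n => t n g) (fun {m n} h => hcompat h g)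
  choose D hD using fun g : GQ => exists_of_compat I
    (fun n => (((cyc (p ^ n) g).val : ℕ) : B ⧸ I ^ n))
    (fun {m n} h => by rw [map_natCast, hD0 h])
  refine ⟨T, D, ⟨⟨?_, ?_, ?_, ?_⟩, ?_, fun n g => hD g n, ?_, ?_, ?_⟩, fun n g => ?_⟩
  · refine eq_of_forall_mk_eq I fun n => ?_
    rw [hT, (ht1 n).t_one, map_ofNat]
  · refine eq_of_forall_mk_eq I fun n => ?_
    rw [hD, (ht1 n).D_one, map_one]
  · intro g g'
    refine eq_of_forall_mk_eq I fun n => ?_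
    rw [map_mul, hD, hD, hD]
    exact (ht1 n).D_mul g g'
  · intro g g'
    refine eq_of_forall_mk_eq I fun n => ?_
    rw [map_add, map_mul, map_mul, hT, hT, hT, hT, hD]
    exact (ht1 n).rel g g'
  · intro n
    simp only [hT]
    exact ht2 n
  · intro ℓ hℓ hℓS A hA τ hτ
    constructor
    · refine eq_of_forall_mk_eq I fun n => ?_
      rw [hT, ht3 n ℓ hℓ hℓS A hA τ hτ]
    · refine eq_of_forall_mk_eq I fun n => ?_
      rw [hD, map_natCast]
      exact hDfrob n ℓ hℓ hℓS A hA τ hτ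
  · intro σ hσ
    constructor
    · intro g
      refine eq_of_forall_mk_eq I fun n => ?_
      rw [hT, hT, ht4 n σ hσ g]
    · refine eq_of_forall_mk_eq I fun n => ?_
      have h1 := (ht1 n).D_one
      simp only [map_one (cyc (p ^ n))] at h1
      rw [hD, hK σ hσ, h1, map_one]
  · refine eq_of_forall_mk_eq I fun n => ?_
    rw [hD, cyc_complexConjugation, map_neg, map_one]
    have h1 : (((-1 : ZMod (p ^ n)).val : ℕ) : B ⧸ I ^ n) = ((p ^ n - 1 : ℕ) : B ⧸ I ^ n) := by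
      refine natCast_eq_of_modEq (natCast_val_eq_zero_of_dvd hpI) ?_
      rw [← ZMod.natCast_eq_natCast_iff, ZMod.natCast_zmod_val,
        Nat.cast_sub (Nat.one_le_pow _ _ hp.out.pos)]
      simp
    rw [h1, Nat.cast_sub (Nat.one_le_pow _ _ hp.out.pos), natCast_val_eq_zero_of_dvd hpI]
    simp
  · obtain ⟨X, i₁, i₂, ρ, hρ, hQ, m, r, hm, hr, hr'⟩ := ht5 n g
    exact ⟨X, i₁, i₂, ρ, hρ, hQ, m, r, hm, by rw [hT, hr], hr'⟩

/-- **The pseudo-representation over a complete ring.** -/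
theorem exists_goodPseudoRep {B : Type*} [CommRing B] {I : Ideal B} [IsAdicComplete I B]
    (hpI : (p : B) ∈ I) (χ : R →+* B) (hS : S.Finite) (hpS : p ∈ S) (K : Set GQ)
    (hK : ∀ σ ∈ K, ∀ k, cyc (p ^ k) σ = 1)
    (hX : ∀ n : ℕ, ∃ (X : Type) (_ : AddCommGroup X) (_ : Module R X)
      (ρ : GQ →* Module.End R X), IsHG a S p n ρ ∧ ∀ σ ∈ K, ρ σ = 1) :
    ∃ t D : GQ → B, IsGoodPseudoRep I (fun ℓ => χ (a ℓ)) S p K t D := by
  obtain ⟨t, D, h, -⟩ := exists_goodPseudoRep' hpI χ hS hpS K hK (fun _ _ _ _ => True)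
    (fun n => by
      obtain ⟨X, i₁, i₂, ρ, h⟩ := hX n
      exact ⟨X, i₁, i₂, ρ, h, trivial⟩)
  exact ⟨t, D, h⟩

end Fermat.Agent.GalRep
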