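import Fermat.Agent.GalRep.Carayol
import Fermat.Prelude.Def_CuspForm_HeckeGaloisRepDatum

set_option autoImplicit false
set_option linter.style.haveILetI false
set_option linter.unusedSectionVars false

/-!
# S31 from `HasBGM`
-/

namespace Fermat.Agent.GalRep

open IsLocalRing Matrix Polynomial
open Fermat.Agent.DefRing (toMatRep toMatRep_apply toMatRep_cont MatCont)

/-- trace and determinant of a two-dimensional matrix representation -/
theorem isPseudoRep_of_matrix {G A : Type*} [Group G] [CommRing A]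
    (r : G →* Matrix (Fin 2) (Fin 2) A) :
    IsPseudoRep (fun g => (r g).trace) (fun g => (r g).det) where
  t_one := by simp
  D_one := by simp
  D_mul g h := by rw [map_mul, Matrix.det_mul]
  rel g h := by
    have h1 : (r h).det • r h⁻¹ = (r h).trace • (1 : Matrix (Fin 2) (Fin 2) A) - r h := by
      have h2 : r h * r h⁻¹ = 1 := by rw [← map_mul, mul_inv_cancel, map_one]
      have h3 : (r h).adjugate = (r h).trace • (1 : Matrix (Fin 2) (Fin 2) A) - r h := by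
        rw [Matrix.adjugate_fin_two]
        ext i j
        fin_cases i <;> fin_cases j <;> simp [Matrix.trace_fin_two]
      rw [← h3, ← Matrix.mul_one (r h).adjugate, ← h2, ← Matrix.mul_assoc, Matrix.adjugate_mul,
        Matrix.smul_mul, Matrix.one_mul]
    have h4 : (r h).det * (r (g * h⁻¹)).trace = (r g * ((r h).det • r h⁻¹)).trace := by
      rw [map_mul, Matrix.mul_smul, Matrix.trace_smul, smul_eq_mul]
    rw [h4, h1, map_mul, Matrix.mul_sub, Matrix.mul_smul, Matrix.mul_one, Matrix.trace_sub,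
      Matrix.trace_smul, smul_eq_mul]
    ring

theorem isLocConst_trace {A : Type} [CommRing A] [IsLocalRing A]
    (r : GQ →* Matrix (Fin 2) (Fin 2) A) (hr : MatCont r) (n : ℕ) :
    IsLocConst (fun g => Ideal.Quotient.mk (maximalIdeal A ^ n) (r g).trace) := by
  obtain ⟨L, hL, h⟩ := hr n
  refine ⟨L, hL, fun σ hσ g => ?_⟩
  rw [Ideal.Quotient.eq, ← Matrix.trace_sub]
  have h1 : r (g * σ) - r g = r g * (r σ - 1) := by
    rw [map_mul, Matrix.mul_sub, Matrix.mul_one]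
  rw [h1, Matrix.trace]
  refine Ideal.sum_mem _ fun i _ => ?_
  rw [Matrix.diag_apply, Matrix.mul_apply]
  exact Ideal.sum_mem _ fun j _ => Ideal.mul_mem_left _ _ (h σ hσ j i)

theorem trace_det_of_charpoly {A : Type} [CommRing A] [Nontrivial A] {V : Type}
    [AddCommGroup V] [Module A V] [Module.Free A V] [Module.Finite A V] (f : Module.End A V)
    (b : Module.Basis (Fin 2) A V) {x y : A}
    (h : LinearMap.charpoly f = X ^ 2 - C x * X + C y) :
    (LinearMap.toMatrix b b f).trace = x ∧ (LinearMap.toMatrix b b f).det = y := by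
  rw [← LinearMap.charpoly_toMatrix f b, Matrix.charpoly_fin_two] at h
  constructor
  · have h1 := congrArg (fun q : A[X] => q.coeff 1) h
    simp [coeff_X, coeff_C] at h1
    exact h1
  · have h1 := congrArg (fun q : A[X] => q.coeff 0) h
    simpa [coeff_X, coeff_C] using h1

variable {p : ℕ} {N : ℕ} [NeZero N] {S : Finset ℕ}
  {𝒪 : Type} [CommRing 𝒪] [IsDomain 𝒪] [IsDiscreteValuationRing 𝒪]
  [IsAdicComplete (IsLocalRing.maximalIdeal 𝒪) 𝒪]
  {θ : CuspForm.heckeAlgebra N 2 (↑S : Set ℕ) →+* IsLocalRing.ResidueField 𝒪}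
  {T : Type} [CommRing T] [IsLocalRing T] [IsNoetherianRing T]
  [IsAdicComplete (IsLocalRing.maximalIdeal T) T] [Algebra 𝒪 T] [IsLocalHom (algebraMap 𝒪 T)]
  [Module.Finite 𝒪 T] [Module.Free 𝒪 T]

/-- the trace of the representation of a Hecke-Galois datum is invariant under inertia -/
theorem datum_rho_eq_one (hB : ∀ (N p : ℕ) [NeZero N] [Fact p.Prime], HasBGM N p) (hp : p.Prime)
    (hp𝒪 : (p : 𝒪) ∈ IsLocalRing.maximalIdeal 𝒪) (hpS : p ∈ S)
    (hNS : ∀ q : ℕ, q.Prime → q ∣ N → q ∈ S)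
    (H : CuspForm.HeckeGaloisRepDatum N (↑S : Set ℕ) 𝒪 θ T) (σ : GQ)
    (hσ : σ ∈ inertiaSet N p) : H.ρ.ρ σ = 1 := by
  haveI : Fact p.Prime := ⟨hp⟩
  have hpT : (p : T) ∈ IsLocalRing.maximalIdeal T := by
    rw [← map_natCast (algebraMap 𝒪 T), IsLocalRing.mem_maximalIdeal]
    rw [IsLocalRing.mem_maximalIdeal] at hp𝒪
    exact fun h => hp𝒪 ((isUnit_map_iff (algebraMap 𝒪 T) (p : 𝒪)).mp h)
  have hNS' : ∀ q : ℕ, q.Prime → q ∣ N → q ∈ (↑S : Set ℕ) := hNS
  obtain ⟨t, D, h⟩ := exists_goodPseudoRep_hecke (hB N p) S.finite_toSet hpS hNS' hpT H.π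
  let b : Module.Basis (Fin 2) T H.ρ.V := Module.finBasisOfFinrankEq T H.ρ.V H.ρ.finrank_eq
  refine eq_one_of_trace_eq H.ρ H.residual_absIrr b σ fun g => ?_
  have key : ∀ g, (toMatRep H.ρ b g).trace = t g := by
    intro g
    refine eq_of_forall_mk_eq (maximalIdeal T) fun n => ?_
    have h1 := (isPseudoRep_of_matrix (toMatRep H.ρ b)).comp
      (Ideal.Quotient.mk (maximalIdeal T ^ n))
    have h2 := h.isPseudoRep.comp (Ideal.Quotient.mk (maximalIdeal T ^ n))
    refine congrFun (IsPseudoRep.t_eq_of_frobenius h1 h2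
      (isLocConst_trace _ (toMatRep_cont H.ρ b) n) (h.cont n) S.finite_toSet ?_) g
    intro ℓ hℓ hℓS A hA τ hτ
    have hℓN : ¬ ℓ ∣ N := fun h => hℓS (hNS ℓ hℓ h)
    obtain ⟨h3, h4⟩ := h.frobenius ℓ hℓ hℓS A hA τ hτ
    obtain ⟨h5, h6⟩ := trace_det_of_charpoly (H.ρ.ρ τ) b (H.charpoly_frob ℓ hℓ hℓN hℓS A hA τ hτ)
    rw [toMatRep_apply, h5, h6, h3, h4, heckeFun_eq hℓ hℓN hℓS]
    exact ⟨rfl, rfl⟩
  rw [key, key, (h.inertia σ hσ).1]

theorem s31_of_hasBGM (hB : ∀ (N p : ℕ) [NeZero N] [Fact p.Prime], HasBGM N p) (hp : p.Prime)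
    (hp𝒪 : (p : 𝒪) ∈ IsLocalRing.maximalIdeal 𝒪) (hpS : p ∈ S)
    (hNS : ∀ q : ℕ, q.Prime → q ∣ N → q ∈ S)
    (H : CuspForm.HeckeGaloisRepDatum N (↑S : Set ℕ) 𝒪 θ T)
    (q : ℕ) (hq : q.Prime) (hqS : q ∉ S) :
    H.ρ.IsUnramifiedAt q := by
  haveI : Fact p.Prime := ⟨hp⟩
  intro A hA σ hσ
  exact datum_rho_eq_one hB hp hp𝒪 hpS hNS H σ
    ⟨q, hq, notMem_badSet (S := (↑S : Set ℕ)) hpS hNS hq hqS, A, hA, hσ⟩

end Fermat.Agent.GalRep
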