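import Fermat.Agent.GalRep.Hecke
import Fermat.Agent.GalRep.S31Cond
import Fermat.Agent.Eigen.Character

set_option autoImplicit false
set_option linter.style.haveILetI false
set_option linter.unusedSectionVars false

/-!
# S29 from `HasBGM`
-/

namespace Fermat.Agent.GalRep

open Matrix Polynomial Fermat.Agent.Eigen

/-- the residual representation attached to a matrix representation -/
noncomputable def residualOfMatrix {k : Type} [Field k] (r : GQ →* Matrix (Fin 2) (Fin 2) k)
    (hr : GaloisFactorsThroughFiniteLevel r) : ResidualGaloisRep k where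
  V := Fin 2 → k
  finrank_eq := by simp
  ρ :=
    { toFun := fun σ => Matrix.toLin' (r σ)
      map_one' := by rw [map_one, Matrix.toLin'_one]; rfl
      map_mul' := fun σ τ => by rw [map_mul, Matrix.toLin'_mul]; rfl }
  factorsThroughFiniteLevel := by
    obtain ⟨L, hL, h⟩ := hr
    refine ⟨L, hL, fun σ hσ => ?_⟩
    change Matrix.toLin' (r σ) = 1
    rw [h σ hσ, Matrix.toLin'_one]
    rfl

theorem residualOfMatrix_apply {k : Type} [Field k] (r : GQ →* Matrix (Fin 2) (Fin 2) k)
    (hr : GaloisFactorsThroughFiniteLevel r) (σ : GQ) :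
    (residualOfMatrix r hr).ρ σ = Matrix.toLin' (r σ) := rfl

theorem charpoly_residualOfMatrix {k : Type} [Field k] (r : GQ →* Matrix (Fin 2) (Fin 2) k)
    (hr : GaloisFactorsThroughFiniteLevel r) (σ : GQ) :
    LinearMap.charpoly ((residualOfMatrix r hr).ρ σ) =
      X ^ 2 - C (r σ).trace * X + C (r σ).det := by
  rw [← Matrix.charpoly_fin_two]
  exact Matrix.charpoly_toLin' (r σ)

theorem zmod_two_eq_one : ∀ {z : ZMod 2}, z ≠ 0 → z = 1 := by decide

/-- A pseudo-representation over a field of characteristic `p`, with locally constant trace,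
whose values come from algebraic integers, is realised by a representation. -/
theorem exists_residual_of_pseudoRep {k : Type} [Field k] {p : ℕ} [hp : Fact p.Prime] [CharP k p]
    (φ : integralClosure ℤ ℂ →+* k) {t D : GQ → k} (h : IsPseudoRep t D) (ht : IsLocConst t)
    (hD : ∀ g, D g = (((cyc p g).val : ℕ) : k)) (hφ : ∀ g, ∃ a : integralClosure ℤ ℂ, t g = φ a) :
    ∃ ρ : ResidualGaloisRep k,
      (∀ σ, LinearMap.charpoly (ρ.ρ σ) = X ^ 2 - C (t σ) * X + C (D σ)) ∧
      ∀ σ, (∀ g, t (g * σ) = t g) → ρ.ρ σ = 1 := by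
  -- eigenvalues exist
  have hroots : ∀ g, ∃ α β : k, α + β = t g ∧ α * β = D g := by
    intro g
    obtain ⟨a, ha⟩ := hφ g
    obtain ⟨x, hx⟩ := IsAlgClosed.exists_root (k := ℂ)
      (X ^ 2 - C (a : ℂ) * X + C (((cyc p g).val : ℕ) : ℂ)) (by
        have : (X ^ 2 - C (a : ℂ) * X + C (((cyc p g).val : ℕ) : ℂ)).degree = 2 := by
          compute_degree!
        rw [this]; norm_num)
    have hx' : x ^ 2 - (a : ℂ) * x + (((cyc p g).val : ℕ) : ℂ) = 0 := by
      simpa [Polynomial.IsRoot] using hx
    have hxint : IsIntegral ℤ x := by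
      have h1 : IsIntegral (integralClosure ℤ ℂ) x := by
        refine ⟨X ^ 2 - C a * X + C (((cyc p g).val : ℕ) : integralClosure ℤ ℂ), ?_, ?_⟩
        · have hm : (X ^ 2 - C a * X + C (((cyc p g).val : ℕ) : integralClosure ℤ ℂ)) =
              X ^ 2 + (C (((cyc p g).val : ℕ) : integralClosure ℤ ℂ) - C a * X) := by ring
          rw [hm]
          refine monic_X_pow_add (n := 2) ?_
          refine lt_of_le_of_lt (degree_sub_le _ _) (max_lt ?_ ?_)
          · exact lt_of_le_of_lt degree_C_le (by norm_num)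
          · exact lt_of_le_of_lt (degree_C_mul_X_le _) (by norm_num)
        · simp only [eval₂_add, eval₂_sub, eval₂_mul, eval₂_pow, eval₂_X, eval₂_C, map_natCast,
            eval₂_natCast]
          exact hx'
      exact isIntegral_trans x h1
    let x' : integralClosure ℤ ℂ := ⟨x, hxint⟩
    refine ⟨φ x', φ (a - x'), ?_, ?_⟩
    · rw [ha, map_sub]; ring
    · have h2 : x' * (a - x') = (((cyc p g).val : ℕ) : integralClosure ℤ ℂ) := by
        apply Subtype.ext
        change x * ((a : ℂ) - x) = _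
        have h3 : (((((cyc p g).val : ℕ) : integralClosure ℤ ℂ)) : ℂ) =
          (((cyc p g).val : ℕ) : ℂ) := map_natCast (algebraMap (integralClosure ℤ ℂ) ℂ) _
        rw [h3]
        linear_combination -hx'
      rw [← map_mul, h2, map_natCast, hD]
  have hlevel : ∀ r : GQ →* Matrix (Fin 2) (Fin 2) k,
      (∀ i j, (fun g => r g i j) ∈ Submodule.span k
        (Set.range fun (x : GQ) (g : GQ) => t (x * g))) →
      ∀ σ, (∀ g, t (g * σ) = t g) → r σ = 1 := by
    intro r hr σ hσ
    have hinv : ∀ (f : GQ → k), f ∈ Submodule.span k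
        (Set.range fun (x g : GQ) => t (x * g)) → f σ = f 1 := by
      intro f hf
      induction hf using Submodule.span_induction with
      | mem f hf =>
        obtain ⟨x, rfl⟩ := hf
        change t (x * σ) = t (x * 1)
        rw [hσ, mul_one]
      | zero => rfl
      | add f f' _ _ h h' => rw [Pi.add_apply, Pi.add_apply, h, h']
      | smul c f _ h => rw [Pi.smul_apply, Pi.smul_apply, h]
    ext i j
    rw [hinv _ (hr i j), map_one]
  by_cases hex : ∃ (g₀ : GQ) (α β : k), α ≠ β ∧ α + β = t g₀ ∧ α * β = D g₀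
  · obtain ⟨g₀, α, β, hαβ, hs, hp'⟩ := hex
    obtain ⟨r, h1, h2, h3⟩ := h.exists_matrix hαβ hs hp'
    have hfin : GaloisFactorsThroughFiniteLevel r := by
      obtain ⟨L, hL, hL'⟩ := ht
      exact ⟨L, hL, fun σ hσ => hlevel r h3 σ (hL' σ hσ)⟩
    refine ⟨residualOfMatrix r hfin, fun σ => ?_, fun σ hσ => ?_⟩
    · rw [charpoly_residualOfMatrix, h1, h2]
    · rw [residualOfMatrix_apply, hlevel r h3 σ hσ, Matrix.toLin'_one]
      rfl
  · -- all elements have a double eigenvalue; this only happens for `p = 2`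
    push Not at hex
    have hp2 : p = 2 := by
      by_contra hp2
      obtain ⟨α, β, hs, hp'⟩ := hroots complexConjugation
      by_cases hαβ : α = β
      · have hDc : D complexConjugation = -1 := by
          rw [hD, cyc_complexConjugation]
          have h1 : (((-1 : ZMod p).val : ℕ) : k) = ((p - 1 : ℕ) : k) := by
            have h0 : ((p : ℕ) : k) = 0 := CharP.cast_eq_zero k p
            refine natCast_eq_of_modEq h0 ?_
            rw [← ZMod.natCast_eq_natCast_iff, ZMod.natCast_zmod_val,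
              Nat.cast_sub hp.out.one_le]
            simp
          rw [h1, Nat.cast_sub hp.out.one_le, CharP.cast_eq_zero]
          simp
        have htc : t complexConjugation * t complexConjugation = 0 := by
          have h1 := h.t_sq complexConjugation
          rw [complexConjugation_mul_self, h.t_one, hDc] at h1
          rw [← h1]; ring
        have htc0 : t complexConjugation = 0 := mul_self_eq_zero.mp htc
        subst hαβ
        rw [htc0] at hs
        rw [hDc] at hp'
        have h4 : (2 : k) * α = 0 := by linear_combination hs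
        have h5 : (2 : k) ≠ 0 := by
          intro h5
          have h6 : ((2 : ℕ) : k) = 0 := by exact_mod_cast h5
          rw [CharP.cast_eq_zero_iff k p, Nat.prime_dvd_prime_iff_eq hp.out Nat.prime_two] at h6
          exact hp2 h6
        have h6 : α = 0 := (mul_eq_zero.mp h4).resolve_left h5
        rw [h6, mul_zero] at hp'
        exact one_ne_zero (neg_eq_zero.mp hp'.symm)
      · exact hex complexConjugation α β hαβ hs hp'
    subst hp2
    have h20 : (2 : k) = 0 := by exact_mod_cast CharP.cast_eq_zero k 2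
    have hD1 : ∀ g, D g = 1 := by
      intro g
      rw [hD]
      have h1 : cyc 2 g * cyc 2 g⁻¹ = 1 := by rw [← map_mul, mul_inv_cancel, map_one]
      have h2 : cyc 2 g ≠ 0 := fun h => by rw [h, zero_mul] at h1; exact zero_ne_one h1
      have h3 : cyc 2 g = 1 := zmod_two_eq_one h2
      rw [h3]
      simp [ZMod.val_one]
    have ht0 : ∀ g, t g = 0 := by
      intro g
      obtain ⟨α, β, hs, hp'⟩ := hroots g
      have hαβ : α = β := by
        by_contra hne
        exact hex g α β hne hs hp'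
      rw [← hs, hαβ, ← two_mul, h20, zero_mul]
    refine ⟨residualOfMatrix 1 ⟨⊥, inferInstance, fun _ _ => rfl⟩, fun σ => ?_, fun σ _ => ?_⟩
    · rw [charpoly_residualOfMatrix, ht0, hD1]
      simp [h20]
    · rw [residualOfMatrix_apply]
      change Matrix.toLin' (1 : Matrix (Fin 2) (Fin 2) k) = 1
      rw [Matrix.toLin'_one]
      rfl

theorem s29_of_hasBGM (hB : ∀ (N p : ℕ) [NeZero N] [Fact p.Prime], HasBGM N p)
    {N : ℕ} {g : CuspForm (CongruenceSubgroup.Gamma0 N) 2} (hg : g.IsNormalizedEigenform)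
    {p : ℕ} (hp : p.Prime) {k : Type} [Field k] [CharP k p]
    (φ : integralClosure ℤ ℂ →+* k) :
    ∃ ρ : ResidualGaloisRep k, ρ.IsAttachedTo g φ ∧
      ∀ ℓ : ℕ, ℓ.Prime → ¬ ℓ ∣ N * p → ρ.IsUnramifiedAt ℓ := by
  haveI : Fact p.Prime := ⟨hp⟩
  rcases Nat.eq_zero_or_pos N with rfl | hN
  · -- level zero: everything is vacuous
    refine ⟨residualOfMatrix 1 ⟨⊥, inferInstance, fun _ _ => rfl⟩, ?_, ?_⟩
    · intro ℓ _ hℓ
      exact absurd (dvd_zero ℓ) hℓ
    · intro ℓ _ hℓ
      exact absurd (by rw [zero_mul]; exact dvd_zero ℓ) hℓ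
  haveI : NeZero N := ⟨hN.ne'⟩
  have hS : (badSet N p).Finite := by
    have h0 : N * p ≠ 0 := mul_ne_zero hN.ne' hp.ne_zero
    exact (Finset.finite_toSet (Nat.divisors (N * p))).subset fun n hn => by
      rw [Finset.mem_coe, Nat.mem_divisors]
      exact ⟨hn, h0⟩
  have hpS : p ∈ badSet N p := dvd_mul_left p N
  have hNS : ∀ q : ℕ, q.Prime → q ∣ N → q ∈ badSet N p := fun q _ hq => dvd_mul_of_dvd_left hq p
  obtain ⟨X, _, _, ρ, hX, hXin⟩ := exists_isHG (hB N p) hpS hNS 1
  obtain ⟨t, ht1, ht2, ht3, ht4⟩ := hX.exists_pseudoRep hS hpS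
  -- the character
  let χ : T₀ N p →+* k := φ.comp (eigenCharInt hg (badSet N p))
  have hχ : ∀ a ∈ Ideal.span {(p : T₀ N p) ^ 1}, χ a = 0 := by
    intro a ha
    obtain ⟨b, rfl⟩ := Ideal.mem_span_singleton.mp ha
    rw [map_mul, map_pow, map_natCast, CharP.cast_eq_zero, pow_one, zero_mul]
  let χ' : (T₀ N p ⧸ Ideal.span {(p : T₀ N p) ^ 1}) →+* k := Ideal.Quotient.lift _ χ hχ
  have hps := ht1.comp χ'
  have hD : ∀ g, χ' (((cyc (p ^ 1) g).val : ℕ)) = (((cyc p g).val : ℕ) : k) := by
    intro g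
    rw [map_natCast]
    have h1 := castHom_cyc (m := p) (n := p ^ 1) (dvd_of_eq (pow_one p).symm) g
    refine natCast_eq_of_modEq (CharP.cast_eq_zero k p) ?_
    rw [← ZMod.natCast_eq_natCast_iff, ZMod.natCast_zmod_val, ← h1]
    simp [ZMod.natCast_val]
  obtain ⟨R, hR1, hR2⟩ := exists_residual_of_pseudoRep φ hps (ht2.comp χ') hD (by
    intro g
    obtain ⟨a, ha⟩ := Ideal.Quotient.mk_surjective (t g)
    exact ⟨eigenCharInt hg (badSet N p) a, by rw [← ha]; rfl⟩)
  refine ⟨R, ?_, ?_⟩
  · intro ℓ hℓ hℓN hℓk A hA σ hσ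
    have hℓS : ℓ ∉ badSet N p := by
      intro h
      rcases (Nat.Prime.dvd_mul hℓ).mp h with h | h
      · exact hℓN h
      · rw [Nat.prime_dvd_prime_iff_eq hℓ hp] at h
        rw [h] at hℓk
        exact hℓk (CharP.cast_eq_zero k p)
    refine ⟨eigenCharInt hg (badSet N p) (heckeFun N (badSet N p) ℓ), ?_, ?_⟩
    · rw [coe_eigenCharInt, heckeFun_eq hℓ hℓN hℓS, eigenChar_T]
    · rw [hR1, ht3 ℓ hℓ hℓS A hA σ hσ, hD]
      have h1 : (((cyc p σ).val : ℕ) : k) = (ℓ : k) := by
        refine natCast_eq_of_modEq (CharP.cast_eq_zero k p) ?_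
        rw [← ZMod.natCast_eq_natCast_iff, ZMod.natCast_zmod_val]
        refine cyc_frobenius ((Nat.coprime_primes hℓ hp).mpr ?_) hA hσ
        rintro rfl
        exact hℓS hpS
      rw [h1]
      rfl
  · intro ℓ hℓ hℓN A hA σ hσ
    refine hR2 σ fun g => congrArg χ' ?_
    have hmem : σ ∈ inertiaSet N p := ⟨ℓ, hℓ, hℓN, A, hA, hσ⟩
    exact ht4 σ (hXin σ hmem) (fun k => cyc_eq_one_of_mem_inertiaSet hmem k) g

end Fermat.Agent.GalRep
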