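import Fermat.Agent.GalRep.S29Cond
import Fermat.Agent.EC.Reducible
import Fermat.Prelude.Def_FreyPackage_EigenformResidualAttachment

set_option autoImplicit false
set_option linter.style.haveILetI false
set_option linter.unusedSectionVars false

/-!
# S42 from `HasBGM`
-/

namespace Fermat.Agent.GalRep

open WeierstrassCurve WeierstrassCurve.Affine.Point Polynomial

/-- the `p`-torsion representation of the Frey curve factors through a finite level -/
theorem exists_level_frey [DecidableEq (AlgebraicClosure ℚ)] (P : FreyPackage) :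
    ∃ L : IntermediateField ℚ (AlgebraicClosure ℚ), FiniteDimensional ℚ L ∧
      ∀ σ : GQ, (∀ x ∈ L, σ x = x) →
        galoisRepModuleEnd (S := ℚ) (K := AlgebraicClosure ℚ) P.freyCurve P.p σ = 1 := by
  have hodd : Odd P.p := P.pp.odd_of_ne_two (by have := P.hp5; omega)
  have h0 : ((P.p : ℕ) : AlgebraicClosure ℚ) ≠ 0 := Nat.cast_ne_zero.mpr P.pp.ne_zero
  have hfin : Finite (Fermat.Agent.EC.tors (P.freyCurve⁄(AlgebraicClosure ℚ)) P.p) :=
    (Fermat.Agent.EC.finite_torsion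
      (W := P.freyCurve.map (algebraMap ℚ (AlgebraicClosure ℚ))) hodd h0).1
  have hopen := Fermat.Agent.EC.isOpen_fixSub (F := ℚ) (K := AlgebraicClosure ℚ)
    (W := P.freyCurve) hfin
  have hnhds := hopen.mem_nhds (one_mem _)
  rw [krullTopology_mem_nhds_one_iff] at hnhds
  obtain ⟨L, hL, hL'⟩ := hnhds
  refine ⟨L, hL, fun σ hσ => ?_⟩
  have hmem : σ ∈ (L.fixingSubgroup : Set GQ) := by
    rw [SetLike.mem_coe, IntermediateField.mem_fixingSubgroup_iff]
    exact hσ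
  have h := hL' hmem
  ext x
  rw [galoisRepModuleEnd_apply]
  have h1 := h x.1 (by
    rw [Fermat.Agent.EC.mem_tors]
    have := x.2
    rw [Submodule.mem_torsionBy_iff] at this
    rwa [natCast_zsmul] at this)
  exact congrArg _ (Subtype.ext h1)

theorem trace_det_of_charpoly_two {k V : Type} [Field k] [AddCommGroup V] [Module k V]
    (hV : Module.finrank k V = 2) (f : Module.End k V) (a d : k)
    [Module.Finite k V]
    (h : LinearMap.charpoly f = X ^ 2 - C a * X + C d) :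
    LinearMap.trace k V f = a ∧ LinearMap.det f = d := by
  have b : Module.Basis (Fin 2) k V := Module.finBasisOfFinrankEq k V hV
  obtain ⟨h1, h2⟩ := trace_det_of_charpoly f b h
  rw [LinearMap.trace_eq_matrix_trace k b, ← LinearMap.det_toMatrix b]
  exact ⟨h1, h2⟩

theorem s42_of_hasBGM (hB : ∀ (N p : ℕ) [NeZero N] [Fact p.Prime], HasBGM N p)
    (P : FreyPackage) (M : ℕ) : P.EigenformResidualAttachmentAt M := by
  intro g hg 𝔪 h𝔪 hp𝔪
  letI : DecidableEq (AlgebraicClosure ℚ) := Classical.decEq _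
  letI : Field (integralClosure ℤ ℂ ⧸ 𝔪) := Ideal.Quotient.field 𝔪
  haveI : Fact P.p.Prime := ⟨P.pp⟩
  haveI hchar : CharP (integralClosure ℤ ℂ ⧸ 𝔪) P.p := by
    have h0 : ((P.p : ℕ) : integralClosure ℤ ℂ ⧸ 𝔪) = 0 := by
      rw [← map_natCast (Ideal.Quotient.mk 𝔪), Ideal.Quotient.eq_zero_iff_mem]
      exact hp𝔪
    obtain ⟨q, hq⟩ := CharP.exists (integralClosure ℤ ℂ ⧸ 𝔪)
    have h1 : q ∣ P.p := (CharP.cast_eq_zero_iff (integralClosure ℤ ℂ ⧸ 𝔪) q P.p).mp h0
    rcases (Nat.dvd_prime P.pp).mp h1 with h2 | h2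
    · exact absurd h2 (CharP.char_ne_one (integralClosure ℤ ℂ ⧸ 𝔪) q)
    · rwa [h2] at hq
  letI : Algebra (ZMod P.p) (integralClosure ℤ ℂ ⧸ 𝔪) := ZMod.algebra _ _
  obtain ⟨R, hR, -⟩ := s29_of_hasBGM hB hg P.pp (Ideal.Quotient.mk 𝔪)
  obtain ⟨L₁, hL₁, hL₁'⟩ := exists_level_frey P
  obtain ⟨L₂, hL₂, hL₂'⟩ := R.factorsThroughFiniteLevel
  let F : IntermediateField ℚ (AlgebraicClosure ℚ) :=
    IntermediateField.normalClosure ℚ (L₁ ⊔ L₂ : IntermediateField ℚ (AlgebraicClosure ℚ))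
      (AlgebraicClosure ℚ)
  haveI : FiniteDimensional ℚ (L₁ ⊔ L₂ : IntermediateField ℚ (AlgebraicClosure ℚ)) :=
    IntermediateField.finiteDimensional_sup L₁ L₂
  have hle : L₁ ⊔ L₂ ≤ F := IntermediateField.le_normalClosure _
  haveI : FiniteDimensional ℚ F := normalClosure.is_finiteDimensional ℚ _ _
  haveI : Normal ℚ F := normalClosure.normal ℚ _ _
  haveI : NumberField F := ⟨⟩
  haveI : IsGalois ℚ F := ⟨⟩
  refine ⟨_, inferInstance, inferInstance, R.V, inferInstance, inferInstance, R.ρ,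
    Ideal.Quotient.mk 𝔪, F, inferInstance, inferInstance, inferInstance, inferInstance,
    inferInstance, ?_, R.finrank_eq, ?_, ?_, ?_⟩
  · rw [Ideal.mk_ker]
  · intro σ hσ
    have hfix : ∀ x ∈ F, σ x = x := by
      intro x hx
      have h1 := AlgEquiv.restrictNormal_commutes σ F ⟨x, hx⟩
      have h2 : σ.restrictNormal F = 1 := hσ
      rw [h2] at h1
      exact h1.symm
    refine ⟨?_, ?_⟩
    · exact hL₁' σ fun x hx => hfix x (hle (le_sup_left (a := L₁) hx))
    · exact hL₂' σ fun x hx => hfix x (hle (le_sup_right (a := L₁) hx))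
  · intro ℓ hℓ hℓM hℓp A hA σ hσ
    have hℓk : (ℓ : integralClosure ℤ ℂ ⧸ 𝔪) ≠ 0 := by
      rw [Ne, CharP.cast_eq_zero_iff _ P.p, Nat.prime_dvd_prime_iff_eq P.pp hℓ]
      exact fun h => hℓp h.symm
    obtain ⟨a, ha, hcp⟩ := hR ℓ hℓ hℓM hℓk A hA σ hσ
    exact ⟨a, ha, (trace_det_of_charpoly_two R.finrank_eq _ _ _ hcp).1⟩
  · intro ℓ hℓ hℓM hℓp A hA σ hσ
    have hℓk : (ℓ : integralClosure ℤ ℂ ⧸ 𝔪) ≠ 0 := by
      rw [Ne, CharP.cast_eq_zero_iff _ P.p, Nat.prime_dvd_prime_iff_eq P.pp hℓ]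
      exact fun h => hℓp h.symm
    obtain ⟨a, ha, hcp⟩ := hR ℓ hℓ hℓM hℓk A hA σ hσ
    exact (trace_det_of_charpoly_two R.finrank_eq _ _ _ hcp).2

end Fermat.Agent.GalRep
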