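import Fermat.Agent.GalRep.Cyclo
import Fermat.Agent.GalRep.PseudoRep

set_option autoImplicit false
set_option linter.style.haveILetI false

/-!
# Pseudo-representations from Hecke modules with the Eichler-Shimura relation
-/

namespace Fermat.Agent.GalRep

open Fermat.Agent.Places Fermat.Agent.Cheb

/-- Abstract version of `IsBGM`: `R` is a commutative ring with elements `a ℓ`, `X` an
`R`-module with Galois action. -/
structure IsHG {R : Type*} [CommRing R] (a : ℕ → R) (S : Set ℕ) (p n : ℕ) {X : Type*}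
    [AddCommGroup X] [Module R X] (ρ : GQ →* Module.End R X) : Prop where
  torsion : ∃ m : ℕ, ∀ x : X, p ^ m • x = 0
  level : ∃ L : IntermediateField ℚ (AlgebraicClosure ℚ), FiniteDimensional ℚ L ∧
    ∀ σ : GQ, (∀ x ∈ L, σ x = x) → ρ σ = 1
  frobenius : ∀ (ℓ : ℕ), ℓ.Prime → ℓ ∉ S →
    ∀ A : ValuationSubring (AlgebraicClosure ℚ), A.LiesOverPrime ℓ →
      ∀ σ : GQ, A.IsFrobeniusAt σ ℓ → ∀ x : X,
        ρ σ (ρ σ x) - a ℓ • ρ σ x + ℓ • x = 0
  faithful : ∀ r : R, (∀ x : X, r • x = 0) → ∃ b : R, r = (p : R) ^ n * b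

/-- a locally constant function on the Galois group -/
def IsLocConst {α : Type*} (f : GQ → α) : Prop :=
  ∃ L : IntermediateField ℚ (AlgebraicClosure ℚ), FiniteDimensional ℚ L ∧
    ∀ σ : GQ, (∀ x ∈ L, σ x = x) → ∀ g, f (g * σ) = f g

theorem IsLocConst.comp {α β : Type*} {f : GQ → α} (hf : IsLocConst f) (φ : α → β) :
    IsLocConst (fun g => φ (f g)) := by
  obtain ⟨L, hL, h⟩ := hf
  exact ⟨L, hL, fun σ hσ g => congrArg φ (h σ hσ g)⟩

theorem IsLocConst.prodMk {α β : Type*} {f : GQ → α} {f' : GQ → β} (hf : IsLocConst f)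
    (hf' : IsLocConst f') : IsLocConst (fun g => (f g, f' g)) := by
  obtain ⟨L, hL, h⟩ := hf
  obtain ⟨L', hL', h'⟩ := hf'
  haveI := hL
  haveI := hL'
  refine ⟨L ⊔ L', inferInstance, fun σ hσ g => Prod.ext (h σ (fun x hx => hσ x ?_) g)
    (h' σ (fun x hx => hσ x ?_) g)⟩
  · exact (le_sup_left : L ≤ L ⊔ L') hx
  · exact (le_sup_right : L' ≤ L ⊔ L') hx

theorem isOpen_fixing (L : IntermediateField ℚ (AlgebraicClosure ℚ)) [FiniteDimensional ℚ L] :
    IsOpen (L.fixingSubgroup : Set GQ) := IntermediateField.fixingSubgroup_isOpen L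

/-- locally constant functions agreeing at powers of Frobenius elements are equal -/
theorem IsLocConst.eq_of_forall_pow {α : Type*} {f f' : GQ → α} (hf : IsLocConst f)
    (hf' : IsLocConst f') {S : Set ℕ} (hS : S.Finite)
    (h : ∀ ℓ : ℕ, ℓ.Prime → ℓ ∉ S → ∀ A : ValuationSubring (AlgebraicClosure ℚ),
      A.LiesOverPrime ℓ → ∀ τ : GQ, A.IsFrobeniusAt τ ℓ → ∀ n : ℕ, f (τ ^ n) = f' (τ ^ n)) :
    f = f' := by
  obtain ⟨L, hL, h1⟩ := hf.prodMk hf'
  haveI := hL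
  funext g
  refine frobenius_induction S hS L.fixingSubgroup (isOpen_fixing L) (fun g => f g = f' g)
    ?_ h g
  intro g u hu hg
  have h2 := h1 u ((IntermediateField.mem_fixingSubgroup_iff L u).mp hu) g
  rw [Prod.mk.injEq] at h2
  change f (g * u) = f' (g * u)
  rw [h2.1, h2.2]
  exact hg

/-- Uniqueness of locally constant pseudo-representations with given values at Frobenii. -/
theorem IsPseudoRep.t_eq_of_frobenius {R : Type*} [CommRing R] {t t' D D' : GQ → R}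
    (h : IsPseudoRep t D) (h' : IsPseudoRep t' D') (hc : IsLocConst t) (hc' : IsLocConst t')
    {S : Set ℕ} (hS : S.Finite)
    (heq : ∀ ℓ : ℕ, ℓ.Prime → ℓ ∉ S → ∀ A : ValuationSubring (AlgebraicClosure ℚ),
      A.LiesOverPrime ℓ → ∀ τ : GQ, A.IsFrobeniusAt τ ℓ → t τ = t' τ ∧ D τ = D' τ) : t = t' := by
  refine hc.eq_of_forall_pow hc' hS fun ℓ hℓ hℓS A hA τ hτ n => ?_
  obtain ⟨h1, h2⟩ := heq ℓ hℓ hℓS A hA τ hτ
  have key : ∀ n : ℕ, t (τ ^ n) = t' (τ ^ n) ∧ t (τ ^ (n + 1)) = t' (τ ^ (n + 1)) := by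
    intro n
    induction n with
    | zero => exact ⟨by rw [pow_zero, h.t_one, h'.t_one], by rw [zero_add, pow_one, h1]⟩
    | succ n ih =>
      refine ⟨ih.2, ?_⟩
      have e1 := h.rel (τ ^ (n + 1)) τ
      have e2 := h'.rel (τ ^ (n + 1)) τ
      have e3 : τ ^ (n + 1) * τ⁻¹ = τ ^ n := by rw [pow_succ, mul_inv_cancel_right]
      rw [e3, ← pow_succ] at e1 e2
      rw [ih.1, ih.2, h1, h2] at e1
      exact add_right_cancel (e1.trans e2.symm)
  exact (key n).1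

theorem isLocConst_cyc (n : ℕ) [NeZero n] : IsLocConst (cyc n) := by
  obtain ⟨L, hL, h⟩ := exists_level_cyc n
  exact ⟨L, hL, fun σ hσ g => by rw [map_mul, h σ hσ, mul_one]⟩

section

variable {R : Type*} [CommRing R] {a : ℕ → R} {S : Set ℕ} {p n : ℕ} [hp : Fact p.Prime]
  {X : Type*} [AddCommGroup X] [Module R X] {ρ : GQ →* Module.End R X}

/-- for every `g` the operator `g + D(g) g⁻¹` is in the image of `R`. -/
theorem IsHG.exists_trace (h : IsHG a S p n ρ) (hS : S.Finite) (hpS : p ∈ S) (m : ℕ)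
    (hm : ∀ x : X, p ^ m • x = 0) (g : GQ) :
    ∃ r : R, ∀ x : X, ρ g x + (cyc (p ^ m) g).val • ρ g⁻¹ x = r • x := by
  obtain ⟨L, hL, h1⟩ := h.level
  obtain ⟨L', hL', h2⟩ := exists_level_cyc (p ^ m)
  haveI := hL
  haveI := hL'
  let M := L ⊔ L'
  haveI : FiniteDimensional ℚ M := inferInstance
  have hMρ : ∀ u ∈ M.fixingSubgroup, ρ u = 1 := fun u hu => h1 u fun x hx =>
    (IntermediateField.mem_fixingSubgroup_iff M u).mp hu x ((le_sup_left : L ≤ L ⊔ L') hx)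
  have hMc : ∀ u ∈ M.fixingSubgroup, cyc (p ^ m) u = 1 := fun u hu => h2 u fun x hx =>
    (IntermediateField.mem_fixingSubgroup_iff M u).mp hu x ((le_sup_right : L' ≤ L ⊔ L') hx)
  refine frobenius_induction S hS M.fixingSubgroup (isOpen_fixing M)
    (fun g => ∃ r : R, ∀ x : X, ρ g x + (cyc (p ^ m) g).val • ρ g⁻¹ x = r • x) ?_ ?_ g
  · rintro g u hu ⟨r, hr⟩
    refine ⟨r, fun x => ?_⟩
    rw [mul_inv_rev, map_mul, map_mul, map_mul, hMρ u hu, hMρ u⁻¹ (inv_mem hu), hMc u hu, mul_one,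
      one_mul, mul_one]
    exact hr x
  · intro ℓ hℓ hℓS A hA τ hτ k
    have hcop : Nat.Coprime ℓ (p ^ m) := by
      refine Nat.Coprime.pow_right _ ((Nat.coprime_primes hℓ hp.out).mpr ?_)
      rintro rfl
      exact hℓS hpS
    have hcyc : ∀ k : ℕ, ∀ x : X, (cyc (p ^ m) (τ ^ k)).val • x = ℓ ^ k • x := by
      intro k x
      have h3 : cyc (p ^ m) (τ ^ k) = ((ℓ ^ k : ℕ) : ZMod (p ^ m)) := by
        rw [map_pow, cyc_frobenius hcop hA hτ]; push_cast; rfl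
      have h4 : ((cyc (p ^ m) (τ ^ k)).val : ZMod (p ^ m)) = ((ℓ ^ k : ℕ) : ZMod (p ^ m)) := by
        rw [ZMod.natCast_zmod_val, h3]
      rw [ZMod.natCast_eq_natCast_iff] at h4
      obtain h5 | h5 := le_total (cyc (p ^ m) (τ ^ k)).val (ℓ ^ k)
      · obtain ⟨c, hc⟩ := (Nat.modEq_iff_dvd' h5).mp h4
        have h6 : ℓ ^ k = (cyc (p ^ m) (τ ^ k)).val + c * p ^ m := by
          rw [mul_comm]; omega
        rw [h6, add_smul, mul_smul, hm, smul_zero, add_zero]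
      · obtain ⟨c, hc⟩ := (Nat.modEq_iff_dvd' h5).mp h4.symm
        have h6 : (cyc (p ^ m) (τ ^ k)).val = ℓ ^ k + c * p ^ m := by
          rw [mul_comm]; omega
        rw [h6, add_smul, mul_smul, hm, smul_zero, add_zero]
    have hinv : ∀ x : X, ρ τ (ρ τ⁻¹ x) = x := fun x => by
      rw [← Module.End.mul_apply, ← map_mul, mul_inv_cancel, map_one, Module.End.one_apply]
    have hinv' : ∀ x : X, ρ τ⁻¹ (ρ τ x) = x := fun x => by
      rw [← Module.End.mul_apply, ← map_mul, inv_mul_cancel, map_one, Module.End.one_apply]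
    have hT : ∀ x : X, a ℓ • x = ρ τ x + ℓ • ρ τ⁻¹ x := by
      intro x
      have h3 := h.frobenius ℓ hℓ hℓS A hA τ hτ (ρ τ⁻¹ x)
      rw [hinv] at h3
      rw [← sub_eq_zero, ← neg_eq_zero, ← h3]
      abel
    have key : ∀ k : ℕ, ∃ r r' : R, (∀ x : X, ρ (τ ^ k) x + ℓ ^ k • ρ (τ ^ k)⁻¹ x = r • x) ∧
        (∀ x : X, ρ (τ ^ (k + 1)) x + ℓ ^ (k + 1) • ρ (τ ^ (k + 1))⁻¹ x = r' • x) := by
      intro k
      induction k with
      | zero =>
        refine ⟨2, a ℓ, fun x => ?_, fun x => ?_⟩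
        · simp [two_smul]
        · rw [zero_add, pow_one, pow_one, hT]
      | succ k ih =>
        obtain ⟨r, r', hr, hr'⟩ := ih
        refine ⟨r', a ℓ * r' - ℓ * r, hr', fun x => ?_⟩
        rw [sub_smul, mul_smul, ← hr', mul_smul, ← hr, hT]
        have e1 : ρ (τ ^ (k + 1 + 1)) x = ρ τ (ρ (τ ^ (k + 1)) x) := by
          rw [pow_succ' τ (k + 1), map_mul, Module.End.mul_apply]
        have e2 : ρ τ⁻¹ (ρ (τ ^ (k + 1)) x) = ρ (τ ^ k) x := by
          rw [pow_succ' τ k, map_mul, Module.End.mul_apply, hinv']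
        have e3 : ρ τ (ρ (τ ^ (k + 1))⁻¹ x) = ρ (τ ^ k)⁻¹ x := by
          rw [pow_succ τ k, mul_inv_rev, map_mul, Module.End.mul_apply, hinv]
        have e4 : ρ (τ ^ (k + 1 + 1))⁻¹ x = ρ τ⁻¹ (ρ (τ ^ (k + 1))⁻¹ x) := by
          rw [pow_succ τ (k + 1), mul_inv_rev, map_mul, Module.End.mul_apply]
        rw [map_add, map_add, map_nsmul, map_nsmul, e1, e2, e3, e4]
        rw [Nat.cast_smul_eq_nsmul, pow_succ ℓ (k + 1), pow_succ ℓ k]
        module
    obtain ⟨r, -, hr, -⟩ := key k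
    exact ⟨r, fun x => by rw [hcyc k, hr]⟩

/-- **The pseudo-representation attached to a Hecke module with the Eichler-Shimura relation.** -/
theorem IsHG.exists_pseudoRep' (h : IsHG a S p n ρ) (hS : S.Finite) (hpS : p ∈ S) :
    ∃ t : GQ → R ⧸ Ideal.span {(p : R) ^ n},
      (IsPseudoRep t (fun g => (((cyc (p ^ n) g).val : ℕ) : R ⧸ Ideal.span {(p : R) ^ n})) ∧
      IsLocConst t ∧
      (∀ ℓ : ℕ, ℓ.Prime → ℓ ∉ S → ∀ A : ValuationSubring (AlgebraicClosure ℚ),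
        A.LiesOverPrime ℓ → ∀ τ : GQ, A.IsFrobeniusAt τ ℓ → t τ = Ideal.Quotient.mk _ (a ℓ)) ∧
      (∀ σ : GQ, ρ σ = 1 → (∀ k, cyc (p ^ k) σ = 1) → ∀ g, t (g * σ) = t g)) ∧
      ∀ g, ∃ (m : ℕ) (r : R), (∀ x : X, p ^ m • x = 0) ∧ t g = Ideal.Quotient.mk _ r ∧
        ∀ x : X, ρ g x + (cyc (p ^ m) g).val • ρ g⁻¹ x = r • x := by
  obtain ⟨m₀, hm₀⟩ := h.torsion
  -- the exponent
  let m := m₀ + n
  have hm : ∀ x : X, p ^ m • x = 0 := fun x => by
    rw [show m = n + m₀ from add_comm _ _, pow_add, mul_smul, hm₀, smul_zero]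
  choose r hr using h.exists_trace hS hpS m hm
  have huniq : ∀ b b' : R, (∀ x : X, b • x = b' • x) →
      Ideal.Quotient.mk (Ideal.span {(p : R) ^ n}) b = Ideal.Quotient.mk _ b' := by
    intro b b' hb
    obtain ⟨c, hc⟩ := h.faithful (b - b') fun x => by rw [sub_smul, hb, sub_self]
    rw [Ideal.Quotient.eq, hc]
    exact Ideal.mul_mem_right _ _ (Ideal.mem_span_singleton_self _)
  have hcast : ∀ g : GQ, (((cyc (p ^ n) g).val : ℕ) : R ⧸ Ideal.span {(p : R) ^ n}) =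
      Ideal.Quotient.mk _ (((cyc (p ^ m) g).val : ℕ) : R) := by
    intro g
    have h1 := castHom_cyc (m := p ^ n) (n := p ^ m) (pow_dvd_pow p (Nat.le_add_left n m₀)) g
    have h2 : ((((cyc (p ^ m) g).val : ℕ)) : ZMod (p ^ n)) = ((cyc (p ^ n) g).val : ℕ) := by
      rw [ZMod.natCast_zmod_val, ← h1]
      simp [ZMod.natCast_val]
    rw [ZMod.natCast_eq_natCast_iff] at h2
    rw [map_natCast]
    have hpn : ((p ^ n : ℕ) : R ⧸ Ideal.span {(p : R) ^ n}) = 0 := by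
      rw [← map_natCast (Ideal.Quotient.mk (Ideal.span {(p : R) ^ n})),
        Ideal.Quotient.eq_zero_iff_mem]
      push_cast
      exact Ideal.mem_span_singleton_self _
    obtain h5 | h5 := le_total (cyc (p ^ m) g).val (cyc (p ^ n) g).val
    · obtain ⟨c, hc⟩ := (Nat.modEq_iff_dvd' h5).mp h2
      have h6 : (cyc (p ^ n) g).val = (cyc (p ^ m) g).val + p ^ n * c := by omega
      rw [h6, Nat.cast_add, Nat.cast_mul, hpn, zero_mul, add_zero]
    · obtain ⟨c, hc⟩ := (Nat.modEq_iff_dvd' h5).mp h2.symm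
      have h6 : (cyc (p ^ m) g).val = (cyc (p ^ n) g).val + p ^ n * c := by omega
      rw [h6, Nat.cast_add, Nat.cast_mul, hpn, zero_mul, add_zero]
  have hDmul : ∀ g g' : GQ, ∀ x : X, (cyc (p ^ m) (g * g')).val • x =
      (cyc (p ^ m) g).val • (cyc (p ^ m) g').val • x := by
    intro g g' x
    have h2 : (((cyc (p ^ m) (g * g')).val : ℕ) : ZMod (p ^ m)) =
        (((cyc (p ^ m) g).val * (cyc (p ^ m) g').val : ℕ) : ZMod (p ^ m)) := by
      push_cast
      rw [ZMod.natCast_zmod_val, ZMod.natCast_zmod_val, ZMod.natCast_zmod_val, map_mul]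
    rw [ZMod.natCast_eq_natCast_iff] at h2
    rw [← mul_smul]
    obtain h5 | h5 := le_total (cyc (p ^ m) (g * g')).val
      ((cyc (p ^ m) g).val * (cyc (p ^ m) g').val)
    · obtain ⟨c, hc⟩ := (Nat.modEq_iff_dvd' h5).mp h2
      have h6 : (cyc (p ^ m) g).val * (cyc (p ^ m) g').val =
          (cyc (p ^ m) (g * g')).val + c * p ^ m := by rw [mul_comm c]; omega
      rw [h6, add_smul, mul_smul c, hm, smul_zero, add_zero]
    · obtain ⟨c, hc⟩ := (Nat.modEq_iff_dvd' h5).mp h2.symm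
      have h6 : (cyc (p ^ m) (g * g')).val =
          (cyc (p ^ m) g).val * (cyc (p ^ m) g').val + c * p ^ m := by rw [mul_comm c]; omega
      rw [h6, add_smul, mul_smul c, hm, smul_zero, add_zero]
  have hcomm : ∀ (g : GQ) (r : R) (x : X), ρ g (r • x) = r • ρ g x := fun g r x =>
    map_smul (ρ g) r x
  refine ⟨fun g => Ideal.Quotient.mk _ (r g), ⟨⟨?_, ?_, ?_, ?_⟩, ?_, ?_, ?_⟩,
    fun g => ⟨m, r g, hm, rfl, hr g⟩⟩
  · -- t 1 = 2
    rw [← map_ofNat (Ideal.Quotient.mk (Ideal.span {(p : R) ^ n})) 2]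
    apply huniq
    intro x
    rw [← hr 1 x, inv_one, map_one, map_one, Module.End.one_apply]
    have h1 : ∀ x : X, (1 : ZMod (p ^ m)).val • x = x := by
      intro x
      rcases Nat.eq_zero_or_pos m with hm0 | hm0
      · have h2 := hm x
        rw [hm0, pow_zero, one_smul] at h2
        rw [h2, smul_zero]
      · haveI : Fact (1 < p ^ m) := ⟨Nat.one_lt_pow hm0.ne' hp.out.one_lt⟩
        rw [ZMod.val_one, one_smul]
    rw [h1, two_smul]
  · -- D 1 = 1
    change (((cyc (p ^ n) 1).val : ℕ) : R ⧸ Ideal.span {(p : R) ^ n}) = 1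
    rw [map_one]
    rcases Nat.eq_zero_or_pos n with hn0 | hn0
    · subst hn0
      have : Subsingleton (R ⧸ Ideal.span {(p : R) ^ 0}) := by
        rw [Ideal.Quotient.subsingleton_iff, pow_zero, Ideal.span_singleton_one]
      exact Subsingleton.elim _ _
    · haveI : Fact (1 < p ^ n) := ⟨Nat.one_lt_pow hn0.ne' hp.out.one_lt⟩
      rw [ZMod.val_one, Nat.cast_one]
  · -- D mul
    intro g g'
    simp only [hcast]
    rw [← map_mul]
    apply huniq
    intro x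
    rw [mul_smul, Nat.cast_smul_eq_nsmul, Nat.cast_smul_eq_nsmul, Nat.cast_smul_eq_nsmul, hDmul]
  · -- the relation
    intro g g'
    simp only [hcast]
    rw [← map_mul, ← map_mul, ← map_add]
    apply huniq
    intro x
    have hinv : ρ g'⁻¹ (ρ g' x) = x := by
      rw [← Module.End.mul_apply, ← map_mul, inv_mul_cancel, map_one, Module.End.one_apply]
    have hinv' : ρ g' (ρ g'⁻¹ x) = x := by
      rw [← Module.End.mul_apply, ← map_mul, mul_inv_cancel, map_one, Module.End.one_apply]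
    have e1 : r g • ρ g' x = ρ g (ρ g' x) + (cyc (p ^ m) g).val • ρ g⁻¹ (ρ g' x) := (hr g _).symm
    have e2 : r g • ρ g'⁻¹ x = ρ g (ρ g'⁻¹ x) + (cyc (p ^ m) g).val • ρ g⁻¹ (ρ g'⁻¹ x) :=
      (hr g _).symm
    -- commutation of `r g'` with `g⁻¹`
    have e3 : ρ g⁻¹ (ρ g' x) + (cyc (p ^ m) g').val • ρ g⁻¹ (ρ g'⁻¹ x) =
        ρ g' (ρ g⁻¹ x) + (cyc (p ^ m) g').val • ρ g'⁻¹ (ρ g⁻¹ x) := by
      rw [hr g' (ρ g⁻¹ x), ← hcomm, ← hr g' x, map_add, map_nsmul]
    have e4 : (g * g')⁻¹ = g'⁻¹ * g⁻¹ := mul_inv_rev g g'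
    have e5 : (g * g'⁻¹)⁻¹ = g' * g⁻¹ := by rw [mul_inv_rev, inv_inv]
    have e6 : (cyc (p ^ m) g').val • (cyc (p ^ m) (g * g'⁻¹)).val • ρ g' (ρ g⁻¹ x) =
        (cyc (p ^ m) g).val • ρ g' (ρ g⁻¹ x) := by
      rw [smul_comm, ← hDmul, inv_mul_cancel_right]
    have hR : (r g * r g') • x = ρ g (ρ g' x) + (cyc (p ^ m) g').val • ρ g (ρ g'⁻¹ x) +
        (cyc (p ^ m) g).val • (ρ g⁻¹ (ρ g' x) + (cyc (p ^ m) g').val • ρ g⁻¹ (ρ g'⁻¹ x)) := by
      rw [mul_smul, ← hr g' x, smul_add, smul_comm (r g) (cyc (p ^ m) g').val, e1, e2]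
      simp only [smul_add, smul_comm (cyc (p ^ m) g').val (cyc (p ^ m) g).val]
      abel
    have hL : (r (g * g') + ((cyc (p ^ m) g').val : R) * r (g * g'⁻¹)) • x =
        (ρ g (ρ g' x) + (cyc (p ^ m) g).val • (cyc (p ^ m) g').val • ρ g'⁻¹ (ρ g⁻¹ x)) +
        ((cyc (p ^ m) g').val • ρ g (ρ g'⁻¹ x) + (cyc (p ^ m) g).val • ρ g' (ρ g⁻¹ x)) := by
      rw [add_smul, mul_smul, ← hr (g * g'), ← hr (g * g'⁻¹), Nat.cast_smul_eq_nsmul, e4, e5,
        hDmul]
      simp only [map_mul ρ, Module.End.mul_apply, smul_add]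
      rw [e6]
    rw [hL, hR, e3]
    simp only [smul_add]
    abel
  · -- locally constant
    obtain ⟨L, hL, h1⟩ := h.level
    obtain ⟨L', hL', h2⟩ := exists_level_cyc (p ^ m)
    haveI := hL
    haveI := hL'
    refine ⟨L ⊔ L', inferInstance, fun σ hσ g => huniq _ _ fun x => ?_⟩
    have hσ1 : ρ σ = 1 := h1 σ fun x hx => hσ x ((le_sup_left : L ≤ L ⊔ L') hx)
    have hσ2 : cyc (p ^ m) σ = 1 := h2 σ fun x hx => hσ x ((le_sup_right : L' ≤ L ⊔ L') hx)
    have hσ3 : ρ σ⁻¹ = 1 := by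
      have := map_mul ρ σ⁻¹ σ
      rw [inv_mul_cancel, map_one, hσ1, mul_one] at this
      exact this.symm
    rw [← hr (g * σ), ← hr g, mul_inv_rev, map_mul, map_mul, map_mul, hσ1, hσ2, hσ3, mul_one,
      mul_one, one_mul]
  · -- Frobenius
    intro ℓ hℓ hℓS A hA τ hτ
    apply huniq
    intro x
    have hcop : Nat.Coprime ℓ (p ^ m) := by
      refine Nat.Coprime.pow_right _ ((Nat.coprime_primes hℓ hp.out).mpr ?_)
      rintro rfl
      exact hℓS hpS
    have hcyc : ∀ x : X, (cyc (p ^ m) τ).val • x = ℓ • x := by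
      intro x
      have h4 : ((cyc (p ^ m) τ).val : ZMod (p ^ m)) = (ℓ : ZMod (p ^ m)) := by
        rw [ZMod.natCast_zmod_val, cyc_frobenius hcop hA hτ]
      rw [ZMod.natCast_eq_natCast_iff] at h4
      obtain h5 | h5 := le_total (cyc (p ^ m) τ).val ℓ
      · obtain ⟨c, hc⟩ := (Nat.modEq_iff_dvd' h5).mp h4
        have h6 : ℓ = (cyc (p ^ m) τ).val + c * p ^ m := by
          rw [mul_comm]; omega
        conv_rhs => rw [h6]
        rw [add_smul, mul_smul, hm, smul_zero, add_zero]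
      · obtain ⟨c, hc⟩ := (Nat.modEq_iff_dvd' h5).mp h4.symm
        have h6 : (cyc (p ^ m) τ).val = ℓ + c * p ^ m := by
          rw [mul_comm]; omega
        rw [h6, add_smul, mul_smul, hm, smul_zero, add_zero]
    have h3 := h.frobenius ℓ hℓ hℓS A hA τ hτ (ρ τ⁻¹ x)
    have hinv : ρ τ (ρ τ⁻¹ x) = x := by
      rw [← Module.End.mul_apply, ← map_mul, mul_inv_cancel, map_one, Module.End.one_apply]
    rw [hinv] at h3
    rw [← hr τ x, hcyc, ← sub_eq_zero, ← h3]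
    abel
  · -- inertia
    intro σ hσ1 hσ2 g
    apply huniq
    intro x
    have hσ3 : ρ σ⁻¹ = 1 := by
      have := map_mul ρ σ⁻¹ σ
      rw [inv_mul_cancel, map_one, hσ1, mul_one] at this
      exact this.symm
    rw [← hr (g * σ), ← hr g, mul_inv_rev, map_mul, map_mul, map_mul, hσ1, hσ2, hσ3, mul_one,
      mul_one, one_mul]

/-- **The pseudo-representation attached to a Hecke module with the Eichler-Shimura relation.** -/
theorem IsHG.exists_pseudoRep (h : IsHG a S p n ρ) (hS : S.Finite) (hpS : p ∈ S) :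
    ∃ t : GQ → R ⧸ Ideal.span {(p : R) ^ n},
      IsPseudoRep t (fun g => (((cyc (p ^ n) g).val : ℕ) : R ⧸ Ideal.span {(p : R) ^ n})) ∧
      IsLocConst t ∧
      (∀ ℓ : ℕ, ℓ.Prime → ℓ ∉ S → ∀ A : ValuationSubring (AlgebraicClosure ℚ),
        A.LiesOverPrime ℓ → ∀ τ : GQ, A.IsFrobeniusAt τ ℓ → t τ = Ideal.Quotient.mk _ (a ℓ)) ∧
      (∀ σ : GQ, ρ σ = 1 → (∀ k, cyc (p ^ k) σ = 1) → ∀ g, t (g * σ) = t g) := by
  obtain ⟨t, ht, -⟩ := h.exists_pseudoRep' hS hpS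
  exact ⟨t, ht⟩

end

end Fermat.Agent.GalRep
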